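/-
Project R (S41, level raising) — slice R-M4b-Forms: the dictionary between normalised eigenforms
of level `M` and joint Hecke eigenvectors in `ℂ ⊗ Hom_par(Γ₀(M), ℤ)`.

* `exists_eigenvector_of_eigenform`  (L1): eigenform ⟹ eigenvector in the lattice `ℂ ⊗ M`;
* `exists_eigenform_of_eigenvector`  (L2): eigenvector in `ℂ ⊗ M` ⟹ normalised eigenform;
* `tauPar_comm`                      (L3): all the `τ_r` on `Hom_par(Γ₀(M), ℤ)` commute.
-/
import Mathlib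
import Fermat.Agent.S30.Eigen.H4Final
import Fermat.Agent.S30.Residual.Eigen
import Fermat.Agent.S49.Eigenform
import Fermat.Prelude.Def_FLTPrelim_ModularRep

set_option autoImplicit false

open CongruenceSubgroup ModularCurve ModularCurve.Period TensorProduct ModularFormClass

namespace Fermat.Agent.S41.Forms

open Fermat.Agent.S30.Eigen.MultOne Fermat.Agent.S30.Eigen.EichlerShimura
open Fermat.Agent.S30.Hecke.Parabolic Fermat.Agent.S30.Lattice.BaseChange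

variable (N : ℕ) [NeZero N]

/-- the full Hecke family commutes on forms -/
theorem Tr_comm (r s : Nat.Primes) (f : CuspForm (Gamma0 N) 2) :
    Tr N 2 r (Tr N 2 s f) = Tr N 2 s (Tr N 2 r f) := by
  by_cases hr : (r : ℕ) ∣ N <;> by_cases hs : (s : ℕ) ∣ N
  · rw [Tr_of_dvd N 2 hr, Tr_of_dvd N 2 hs]
    have := (CuspForm.heckeULin_comm (N := N) 2 hr hs).eq
    exact LinearMap.congr_fun this f
  · rw [Tr_of_dvd N 2 hr, Tr_of_not_dvd N 2 hs]
    have := (CuspForm.heckeTLin_heckeULin_comm (N := N) 2 s.2 hs hr).eq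
    exact (LinearMap.congr_fun this f).symm
  · rw [Tr_of_not_dvd N 2 hr, Tr_of_dvd N 2 hs]
    have := (CuspForm.heckeTLin_heckeULin_comm (N := N) 2 r.2 hr hs).eq
    exact LinearMap.congr_fun this f
  · rw [Tr_of_not_dvd N 2 hr, Tr_of_not_dvd N 2 hs]
    have := (CuspForm.heckeTLin_comm (N := N) 2 r.2 hr s.2 hs).eq
    exact LinearMap.congr_fun this f

/-- a normalised eigenform is an eigenvector of the full Hecke family -/
theorem Tr_eigen {f : CuspForm (Gamma0 N) 2} (hf : f.IsNormalizedEigenform) (r : Nat.Primes) :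
    Tr N 2 r f = qCoeff (⇑f) r • f := by
  by_cases hr : (r : ℕ) ∣ N
  · rw [Tr_of_dvd N 2 hr]
    exact Fermat.Agent.S30.Residual.Eigen.heckeULin_eigen hf r.2 hr
  · rw [Tr_of_not_dvd N 2 hr]
    exact Fermat.Agent.S30.Residual.Eigen.heckeTLin_eigen hf r.2 hr

/-- **(L1)** a normalised eigenform of level `N` gives a nonzero joint eigenvector of all the
`τ_r` in `ℂ ⊗ Hom_par(Γ₀(N), ℤ)`, with eigenvalues `a_r(f)`. -/
theorem exists_eigenvector_of_eigenform {f : CuspForm (Gamma0 N) 2}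
    (hf : f.IsNormalizedEigenform) :
    ∃ w : ℂ ⊗[ℤ] (parabolicHoms ℤ (Gamma0 N) ℤ), w ≠ 0 ∧
      ∀ (r : ℕ) (hr : r.Prime),
        (tauPar ℤ ℤ N r hr).baseChange ℂ w = qCoeff (⇑f) r • w := by
  refine ⟨(latticeEquiv N).symm (f, 0), ?_, ?_⟩
  · intro h0
    have h1 : ((f, 0) : CuspForm (Gamma0 N) 2 × CuspForm (Gamma0 N) 2) = 0 := by
      have := congrArg (latticeEquiv N) h0
      rwa [LinearEquiv.apply_symm_apply, map_zero] at this
    exact CuspForm.IsNormalizedEigenform.ne_zero hf (congrArg Prod.fst h1)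
  · intro r hr
    apply (latticeEquiv N).injective
    have h := Fermat.Agent.S30.Eigen.H4Final.latticeEquiv_tauPar N ⟨r, hr⟩
      ((latticeEquiv N).symm (f, 0))
    rw [h, LinearEquiv.apply_symm_apply, map_smul, LinearEquiv.apply_symm_apply]
    show (Tr N 2 ⟨r, hr⟩ f, Tr N 2 ⟨r, hr⟩ 0) = qCoeff (⇑f) r • (f, (0 : CuspForm (Gamma0 N) 2))
    rw [Tr_eigen N hf ⟨r, hr⟩, map_zero]
    ext <;> simp

/-- **(L2)** a nonzero joint eigenvector of all the `τ_r` in `ℂ ⊗ Hom_par(Γ₀(N), ℤ)` gives a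
normalised eigenform of level `N` whose `r`-th coefficient is the eigenvalue at `r`. -/
theorem exists_eigenform_of_eigenvector (w : ℂ ⊗[ℤ] (parabolicHoms ℤ (Gamma0 N) ℤ)) (hw : w ≠ 0)
    (θ : ℕ → ℂ)
    (hθ : ∀ (r : ℕ) (hr : r.Prime), (tauPar ℤ ℤ N r hr).baseChange ℂ w = θ r • w) :
    ∃ g : CuspForm (Gamma0 N) 2, g.IsNormalizedEigenform ∧
      ∀ r : ℕ, r.Prime → qCoeff (⇑g) r = θ r := by
  set x := latticeEquiv N w with hx
  have hx0 : x ≠ 0 := fun h => hw ((latticeEquiv N).map_eq_zero_iff.mp h)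
  have hxe : ∀ r : Nat.Primes, Prod.map (Tr N 2 r) (Tr N 2 r) x = θ r • x := by
    intro r
    have h := Fermat.Agent.S30.Eigen.H4Final.latticeEquiv_tauPar N r w
    rw [hθ r r.2, map_smul] at h
    exact h.symm
  -- one of the two components is nonzero
  obtain ⟨v, hv0, hve⟩ : ∃ v : CuspForm (Gamma0 N) 2, v ≠ 0 ∧
      ∀ r : Nat.Primes, Tr N 2 r v = θ r • v := by
    by_cases h1 : x.1 = 0
    · refine ⟨x.2, fun h2 => hx0 (Prod.ext h1 h2), fun r => ?_⟩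
      exact congrArg Prod.snd (hxe r)
    · exact ⟨x.1, h1, fun r => congrArg Prod.fst (hxe r)⟩
  have hT : ∀ (ℓ : ℕ) (hℓ : ℓ.Prime) (hℓN : ¬ ℓ ∣ N),
      ∃ c : ℂ, CuspForm.heckeTLin 2 hℓ hℓN v = c • v := by
    intro ℓ hℓ hℓN
    refine ⟨θ ℓ, ?_⟩
    have := hve ⟨ℓ, hℓ⟩
    rwa [Tr_of_not_dvd N 2 (r := ⟨ℓ, hℓ⟩) hℓN] at this
  have hU : ∀ (q : ℕ) (_ : q.Prime) (hqN : q ∣ N),
      ∃ c : ℂ, CuspForm.heckeULin 2 hqN v = c • v := by
    intro q hq hqN
    refine ⟨θ q, ?_⟩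
    have := hve ⟨q, hq⟩
    rwa [Tr_of_dvd N 2 (r := ⟨q, hq⟩) hqN] at this
  obtain ⟨-, hnorm, hTe, hUe⟩ :=
    Fermat.Agent.S49.Eigenform.normalizedEigenform_of_eigenvector v hv0 hT hU
  refine ⟨(qCoeff (⇑v) 1)⁻¹ • v, hnorm, fun r hr => ?_⟩
  have hve' := hve ⟨r, hr⟩
  by_cases hrN : r ∣ N
  · rw [Tr_of_dvd N 2 (r := ⟨r, hr⟩) hrN, hUe r hr hrN] at hve'
    exact smul_left_injective ℂ hv0 hve'
  · rw [Tr_of_not_dvd N 2 (r := ⟨r, hr⟩) hrN, hTe r hr hrN] at hve'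
    exact smul_left_injective ℂ hv0 hve'

/-- the inclusion of the lattice in its complexification is injective -/
theorem mk_injective :
    Function.Injective (TensorProduct.mk ℤ ℂ (parabolicHoms ℤ (Gamma0 N) ℤ) 1) := by
  intro a b hab
  have h := congrArg (baseChangeEquiv (Gamma0 N) ℂ) hab
  simp only [TensorProduct.mk_apply, baseChangeEquiv_tmul, one_smul] at h
  apply Subtype.ext
  refine AddMonoidHom.ext fun g => ?_
  have h2 := congrArg (fun φ : parabolicHoms ℂ (Gamma0 N) ℂ => (φ : Additive (Gamma0 N) →+ ℂ) g) h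
  simp only [castPar_apply] at h2
  exact_mod_cast h2

/-- **(L3)** all the Hecke operators `τ_r` commute on `Hom_par(Γ₀(N), ℤ)`. -/
theorem tauPar_comm {r s : ℕ} (hr : r.Prime) (hs : s.Prime)
    (x : parabolicHoms ℤ (Gamma0 N) ℤ) :
    tauPar ℤ ℤ N r hr (tauPar ℤ ℤ N s hs x) = tauPar ℤ ℤ N s hs (tauPar ℤ ℤ N r hr x) := by
  apply mk_injective N
  apply (latticeEquiv N).injective
  have e1 : ∀ (t : Module.End ℤ (parabolicHoms ℤ (Gamma0 N) ℤ)) (y : parabolicHoms ℤ (Gamma0 N) ℤ),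
      TensorProduct.mk ℤ ℂ (parabolicHoms ℤ (Gamma0 N) ℤ) 1 (t y) =
        t.baseChange ℂ (TensorProduct.mk ℤ ℂ (parabolicHoms ℤ (Gamma0 N) ℤ) 1 y) := by
    intro t y
    simp only [TensorProduct.mk_apply, LinearMap.baseChange_tmul]
  rw [e1, e1, e1, e1]
  rw [Fermat.Agent.S30.Eigen.H4Final.latticeEquiv_tauPar N ⟨r, hr⟩,
    Fermat.Agent.S30.Eigen.H4Final.latticeEquiv_tauPar N ⟨s, hs⟩,
    Fermat.Agent.S30.Eigen.H4Final.latticeEquiv_tauPar N ⟨s, hs⟩,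
    Fermat.Agent.S30.Eigen.H4Final.latticeEquiv_tauPar N ⟨r, hr⟩]
  ext
  · exact congrArg (fun f : CuspForm (Gamma0 N) 2 => (f : UpperHalfPlane → ℂ) _)
      (Tr_comm N ⟨r, hr⟩ ⟨s, hs⟩ _)
  · exact congrArg (fun f : CuspForm (Gamma0 N) 2 => (f : UpperHalfPlane → ℂ) _)
      (Tr_comm N ⟨r, hr⟩ ⟨s, hs⟩ _)

end Fermat.Agent.S41.Forms
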