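/-
PROJECT R (S41, level raising), slice R-M3 (helper2): the abstract congruence-module endgame.
Mathlib only.

`M`, `M'` are abelian groups (the Betti lattices of levels `N` and `N q'`), `t i`, `t' i` the good
Hecke operators, `T = T_{q'}` on `M`, `α = (α₁, α₂) : M² → M'` the two degeneracy pull-backs,
`β = (β₁, β₂) : M' → M²` the two push-forwards, `β α = [[c, T], [T, c]]`, `c = q' + 1`.

* `exists_mod_p_new` (no finiteness): from a mod-`p` eigenvector `m₀` of level `N` with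
  `T m₀ ≡ ε c m₀`, `ε = ±1`, and **Ihara** for one Eisenstein element `η = t r - e`
  (`η` kills `ker (α mod p)`), non-Eisenstein (`p ∤ a r - e`): an element `u₀ ∉ p M'`,
  eigen mod `p`, with `β u₀ ∈ p M²`.
* `exists_new_eigen` : if moreover **dual Ihara** holds (`η` kills `coker (β mod p)`) and `M` is a
  noetherian `p`-torsion-free `ℤ`-module, then there is `u ∈ ker β`, `u ∉ p M'`, with
  `t' i u - a i • u ∈ p • ker β` for all `i`: a mod-`p` eigenvector in the `q'`-new lattice, the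
  input of the Deligne-Serre lifting lemma.
* `dual_of_perfect` : dual Ihara from Ihara and perfect pairings for which `α`, `β` are adjoint
  and `t r` is self-adjoint.
-/
import Mathlib

set_option autoImplicit false

namespace Fermat.Agent.S41.CongModule

variable {M M' : Type*} [AddCommGroup M] [AddCommGroup M']

/-- `x ∈ p M` -/
def InP (p : ℕ) {A : Type*} [AddCommGroup A] (x : A) : Prop := ∃ y : A, x = (p : ℤ) • y

theorem InP.add {p : ℕ} {A : Type*} [AddCommGroup A] {x y : A} (hx : InP p x) (hy : InP p y) :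
    InP p (x + y) := by
  obtain ⟨a, rfl⟩ := hx
  obtain ⟨b, rfl⟩ := hy
  exact ⟨a + b, (smul_add _ _ _).symm⟩

theorem InP.sub {p : ℕ} {A : Type*} [AddCommGroup A] {x y : A} (hx : InP p x) (hy : InP p y) :
    InP p (x - y) := by
  obtain ⟨a, rfl⟩ := hx
  obtain ⟨b, rfl⟩ := hy
  exact ⟨a - b, (smul_sub _ _ _).symm⟩

theorem InP.neg {p : ℕ} {A : Type*} [AddCommGroup A] {x : A} (hx : InP p x) : InP p (-x) := by
  obtain ⟨a, rfl⟩ := hx
  exact ⟨-a, (smul_neg _ _).symm⟩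

theorem InP.zero {p : ℕ} {A : Type*} [AddCommGroup A] : InP p (0 : A) := ⟨0, (smul_zero _).symm⟩

theorem InP.zsmul {p : ℕ} {A : Type*} [AddCommGroup A] {x : A} (hx : InP p x) (n : ℤ) :
    InP p (n • x) := by
  obtain ⟨a, rfl⟩ := hx
  exact ⟨n • a, smul_comm _ _ _⟩

theorem InP.map {p : ℕ} {A B : Type*} [AddCommGroup A] [AddCommGroup B] {x : A} (hx : InP p x)
    (f : A →ₗ[ℤ] B) : InP p (f x) := by
  obtain ⟨a, rfl⟩ := hx
  exact ⟨f a, map_smul f _ _⟩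

theorem InP.self_smul {p : ℕ} {A : Type*} [AddCommGroup A] (x : A) : InP p ((p : ℤ) • x) :=
  ⟨x, rfl⟩

/-- if `n • x ∈ p A` with `p ∤ n` then `x ∈ p A` -/
theorem InP.of_zsmul {p : ℕ} (hp : p.Prime) {A : Type*} [AddCommGroup A] {x : A} {n : ℤ}
    (hn : ¬ (p : ℤ) ∣ n) (hx : InP p (n • x)) : InP p x := by
  have hcop : IsCoprime n (p : ℤ) := by
    rw [isCoprime_comm]
    exact (Nat.prime_iff_prime_int.mp hp).coprime_iff_not_dvd.mpr hn
  obtain ⟨a, b, hab⟩ := hcop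
  have h1 : x = a • (n • x) + (p : ℤ) • (b • x) := by
    rw [smul_smul, smul_smul, ← add_smul, mul_comm (p : ℤ) b, hab, one_smul]
  rw [h1]
  exact (hx.zsmul a).add (InP.self_smul _)


/-! ### Part A: the mod-`p` new vector -/

section PartA

variable (p : ℕ) (hp : p.Prime) {ι : Type*} (t : ι → M →ₗ[ℤ] M) (t' : ι → M' →ₗ[ℤ] M')
  (a : ι → ℤ) (T : M →ₗ[ℤ] M) (c ε : ℤ) (α₁ α₂ : M →ₗ[ℤ] M') (β₁ β₂ : M' →ₗ[ℤ] M)

include hp in
/-- **Part A.** `u₀ = α₁ m₀ - ε α₂ m₀` is nonzero mod `p`, eigen mod `p`, and `β u₀ ≡ 0`. -/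
theorem exists_mod_p_new (hε : ε * ε = 1)
    (hα₁ : ∀ i x, α₁ (t i x) = t' i (α₁ x)) (hα₂ : ∀ i x, α₂ (t i x) = t' i (α₂ x))
    (h11 : ∀ x, β₁ (α₁ x) = c • x) (h12 : ∀ x, β₁ (α₂ x) = T x)
    (h21 : ∀ x, β₂ (α₁ x) = T x) (h22 : ∀ x, β₂ (α₂ x) = c • x)
    (r : ι) (e : ℤ)
    (hIhara : ∀ x y : M, InP p (α₁ x + α₂ y) → InP p (t r x - e • x) ∧ InP p (t r y - e • y))
    (m₀ : M) (hm₀ : ¬ InP p m₀) (heig : ∀ i, InP p (t i m₀ - a i • m₀))
    (hT : InP p (T m₀ - (ε * c) • m₀)) (hne : ¬ (p : ℤ) ∣ a r - e) :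
    ¬ InP p (α₁ m₀ - ε • α₂ m₀) ∧ InP p (β₁ (α₁ m₀ - ε • α₂ m₀)) ∧
      InP p (β₂ (α₁ m₀ - ε • α₂ m₀)) ∧
      ∀ i, InP p (t' i (α₁ m₀ - ε • α₂ m₀) - a i • (α₁ m₀ - ε • α₂ m₀)) := by
  refine ⟨?_, ?_, ?_, ?_⟩
  · intro hu
    have h1 : α₁ m₀ - ε • α₂ m₀ = α₁ m₀ + α₂ (-(ε • m₀)) := by
      rw [map_neg, map_smul]; abel
    rw [h1] at hu
    have h2 := (hIhara m₀ (-(ε • m₀)) hu).1
    have h3 : (a r - e) • m₀ = (t r m₀ - e • m₀) - (t r m₀ - a r • m₀) := by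
      rw [sub_smul]; abel
    have h4 : InP p ((a r - e) • m₀) := by
      rw [h3]; exact h2.sub (heig r)
    exact hm₀ (InP.of_zsmul hp hne h4)
  · have h1 : β₁ (α₁ m₀ - ε • α₂ m₀) = -(ε • (T m₀ - (ε * c) • m₀)) := by
      rw [map_sub, map_smul, h11, h12, smul_sub, smul_smul, ← mul_assoc, hε, one_mul]; abel
    rw [h1]
    exact (hT.zsmul ε).neg
  · have h1 : β₂ (α₁ m₀ - ε • α₂ m₀) = T m₀ - (ε * c) • m₀ := by
      rw [map_sub, map_smul, h21, h22, smul_smul]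
    rw [h1]
    exact hT
  · intro i
    have h1 : t' i (α₁ m₀ - ε • α₂ m₀) - a i • (α₁ m₀ - ε • α₂ m₀) =
        α₁ (t i m₀ - a i • m₀) - ε • α₂ (t i m₀ - a i • m₀) := by
      rw [map_sub, map_smul, ← hα₁, ← hα₂, map_sub, map_sub, map_smul, map_smul, smul_sub,
        smul_sub, smul_comm ε (a i)]
      abel
    rw [h1]
    exact ((heig i).map α₁).sub (((heig i).map α₂).zsmul ε)

end PartA


/-! ### Part B: from `β u₀ ≡ 0 mod p` to `β u = 0` -/

section PartB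

variable (p : ℕ) (hp : p.Prime) {ι : Type*} (t : ι → M →ₗ[ℤ] M) (t' : ι → M' →ₗ[ℤ] M')
  (a : ι → ℤ) (β₁ β₂ : M' →ₗ[ℤ] M)

/-- the Eisenstein element `t r - e` on `M × M` -/
def etaP (r : ι) (e : ℤ) : (M × M) →ₗ[ℤ] (M × M) :=
  (t r - e • LinearMap.id).prodMap (t r - e • LinearMap.id)

/-- the Eisenstein element `t' r - e` on `M'` -/
def eta' (r : ι) (e : ℤ) : M' →ₗ[ℤ] M' := t' r - e • LinearMap.id

theorem eta'_apply (r : ι) (e : ℤ) (y : M') : eta' t' r e y = t' r y - e • y := rfl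

theorem etaP_apply (r : ι) (e : ℤ) (v : M × M) :
    etaP t r e v = (t r v.1 - e • v.1, t r v.2 - e • v.2) := rfl

/-- `{v | p ^ k • v ∈ range β}` -/
def satS (k : ℕ) : Submodule ℤ (M × M) :=
  (LinearMap.range (β₁.prod β₂)).comap (((p : ℤ) ^ k) • (LinearMap.id : (M × M) →ₗ[ℤ] (M × M)))

theorem mem_satS {k : ℕ} {v : M × M} :
    v ∈ satS p β₁ β₂ k ↔ ∃ z : M', (β₁.prod β₂) z = ((p : ℤ) ^ k) • v := by
  unfold satS
  rw [Submodule.mem_comap, LinearMap.mem_range]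
  rfl

theorem satS_mono : Monotone (satS p β₁ β₂) := by
  apply monotone_nat_of_le_succ
  intro k v hv
  rw [mem_satS] at hv ⊢
  obtain ⟨z, hz⟩ := hv
  refine ⟨(p : ℤ) • z, ?_⟩
  rw [map_smul, hz, smul_smul, pow_succ, mul_comm]

include hp in
/-- **Part B.** -/
theorem exists_new_eigen [IsNoetherian ℤ M] (hM : ∀ x : M, (p : ℤ) • x = 0 → x = 0)
    (hβ₁ : ∀ i y, β₁ (t' i y) = t i (β₁ y)) (hβ₂ : ∀ i y, β₂ (t' i y) = t i (β₂ y))
    (r : ι) (e : ℤ) (hcomm : ∀ i y, t' i (t' r y) = t' r (t' i y))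
    (hDual : ∀ x y : M, ∃ z : M', InP p (t r x - e • x - β₁ z) ∧ InP p (t r y - e • y - β₂ z))
    (u₀ : M') (hu₀ : ¬ InP p u₀) (hβ₁u : InP p (β₁ u₀)) (hβ₂u : InP p (β₂ u₀))
    (heig : ∀ i, InP p (t' i u₀ - a i • u₀)) (hne : ¬ (p : ℤ) ∣ a r - e) :
    ∃ u : M', β₁ u = 0 ∧ β₂ u = 0 ∧ ¬ InP p u ∧
      ∀ i, ∃ z : M', β₁ z = 0 ∧ β₂ z = 0 ∧ t' i u - a i • u = (p : ℤ) • z := by
  classical
  set β : M' →ₗ[ℤ] (M × M) := β₁.prod β₂ with hβdef
  set ηP : (M × M) →ₗ[ℤ] (M × M) := etaP t r e with hηP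
  set η' : M' →ₗ[ℤ] M' := eta' t' r e with hη'
  -- `β η' = ηP β`
  have hβap : ∀ y, β y = (β₁ y, β₂ y) := fun y => rfl
  have hβη : ∀ y, β (η' y) = ηP (β y) := by
    intro y
    rw [hη', eta'_apply, hηP, etaP_apply, hβap, hβap]
    refine Prod.ext ?_ ?_
    · show β₁ (t' r y - e • y) = t r (β₁ y) - e • β₁ y
      rw [map_sub, map_smul, hβ₁]
    · show β₂ (t' r y - e • y) = t r (β₂ y) - e • β₂ y
      rw [map_sub, map_smul, hβ₂]
  -- stabilisation
  obtain ⟨n, hn⟩ := monotone_stabilizes_iff_noetherian.mpr (inferInstance : IsNoetherian ℤ (M × M))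
    ⟨satS p β₁ β₂, satS_mono p β₁ β₂⟩
  have hn' : ∀ m, n ≤ m → satS p β₁ β₂ n = satS p β₁ β₂ m := fun m hm => hn m hm
  -- dual Ihara on `M × M`
  have hdual : ∀ v : M × M, ∃ (z : M') (v' : M × M), ηP v = β z + (p : ℤ) • v' := by
    intro v
    obtain ⟨z, ⟨x', hx'⟩, ⟨y', hy'⟩⟩ := hDual v.1 v.2
    refine ⟨z, (x', y'), ?_⟩
    rw [hηP, etaP_apply, hβap]
    refine Prod.ext ?_ ?_
    · show t r v.1 - e • v.1 = β₁ z + (p : ℤ) • x'
      rw [← hx']; abel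
    · show t r v.2 - e • v.2 = β₂ z + (p : ℤ) • y'
      rw [← hy']; abel
  -- the key induction
  have key : ∀ j : ℕ, ∀ v ∈ satS p β₁ β₂ n, ∃ z : M', ∃ v'' ∈ satS p β₁ β₂ n,
      (ηP^[j]) v = β z + ((p : ℤ) ^ j) • v'' := by
    intro j
    induction j with
    | zero =>
      intro v hv
      exact ⟨0, v, hv, by simp⟩
    | succ j ih =>
      intro v hv
      obtain ⟨z, v'', hv'', hj⟩ := ih v hv
      obtain ⟨z₁, v₁, h1⟩ := hdual v''
      have hv₁ : v₁ ∈ satS p β₁ β₂ n := by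
        rw [hn' (n + 1) (Nat.le_succ n), mem_satS]
        obtain ⟨w, hw⟩ := (mem_satS p β₁ β₂).mp hv''
        refine ⟨η' w - ((p : ℤ) ^ n) • z₁, ?_⟩
        rw [map_sub, hβη, hw, map_smul, map_smul, h1, pow_succ, mul_smul, smul_add,
          add_sub_cancel_left]
      refine ⟨η' z + ((p : ℤ) ^ j) • z₁, v₁, hv₁, ?_⟩
      rw [Function.iterate_succ_apply', hj, map_add, map_smul, h1, map_add, hβη, map_smul,
        smul_add, pow_succ, mul_smul]
      abel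
  -- `β u₀ = p v₁`
  obtain ⟨x₁, hx₁⟩ := hβ₁u
  obtain ⟨y₁, hy₁⟩ := hβ₂u
  have hβu₀ : β u₀ = (p : ℤ) • ((x₁, y₁) : M × M) := by
    rw [hβap]
    exact Prod.ext hx₁ hy₁
  have hv₁ : ((x₁, y₁) : M × M) ∈ satS p β₁ β₂ n := by
    have h1 : ((x₁, y₁) : M × M) ∈ satS p β₁ β₂ 1 := by
      rw [mem_satS]
      exact ⟨u₀, by rw [pow_one]; exact hβu₀⟩
    rcases Nat.lt_or_ge n 1 with h | h
    · have hn0 : n = 0 := by omega
      rw [hn' 1 (by omega)]
      exact h1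
    · exact satS_mono p β₁ β₂ h h1
  obtain ⟨z, v'', hv'', hz⟩ := key n _ hv₁
  obtain ⟨w, hw⟩ := (mem_satS p β₁ β₂).mp hv''
  -- `ηP^n v₁ = β (z + w)`
  have hz' : (ηP^[n]) ((x₁, y₁) : M × M) = β (z + w) := by
    rw [hz, map_add, hw]
  -- iterates
  have hβηn : ∀ j y, β ((η'^[j]) y) = (ηP^[j]) (β y) := by
    intro j
    induction j with
    | zero => intro y; rfl
    | succ j ih =>
      intro y
      rw [Function.iterate_succ_apply', Function.iterate_succ_apply', hβη, ih]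
  have hηPsmul : ∀ j (k : ℤ) v, (ηP^[j]) (k • v) = k • (ηP^[j]) v := by
    intro j
    induction j with
    | zero => intro k v; rfl
    | succ j ih =>
      intro k v
      rw [Function.iterate_succ_apply', Function.iterate_succ_apply', ih, map_smul]
  -- the element `u`
  refine ⟨(η'^[n]) u₀ - (p : ℤ) • (z + w), ?_, ?_, ?_, ?_⟩
  · have h := congrArg Prod.fst (show β ((η'^[n]) u₀ - (p : ℤ) • (z + w)) = 0 by
      rw [map_sub, hβηn, hβu₀, hηPsmul, map_smul, hz', sub_self])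
    exact h
  · have h := congrArg Prod.snd (show β ((η'^[n]) u₀ - (p : ℤ) • (z + w)) = 0 by
      rw [map_sub, hβηn, hβu₀, hηPsmul, map_smul, hz', sub_self])
    exact h
  · -- not divisible by `p`
    intro hu
    have h1 : InP p ((η'^[n]) u₀) := by
      have : (η'^[n]) u₀ = ((η'^[n]) u₀ - (p : ℤ) • (z + w)) + (p : ℤ) • (z + w) := by abel
      rw [this]
      exact hu.add (InP.self_smul _)
    -- `η'^j u₀ ≡ (a r - e)^j u₀`
    have h2 : ∀ j, InP p ((η'^[j]) u₀ - ((a r - e) ^ j) • u₀) := by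
      intro j
      induction j with
      | zero => simp [InP.zero]
      | succ j ih =>
        have h3 : (η'^[j + 1]) u₀ - ((a r - e) ^ (j + 1)) • u₀ =
            η' ((η'^[j]) u₀ - ((a r - e) ^ j) • u₀) +
              ((a r - e) ^ j) • (t' r u₀ - a r • u₀) := by
          rw [Function.iterate_succ_apply', map_sub, map_smul, hη', eta'_apply, eta'_apply,
            pow_succ, mul_smul, sub_smul, smul_sub, smul_sub, smul_sub]
          abel
        rw [h3]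
        exact (ih.map η').add ((heig r).zsmul _)
    have h4 : InP p (((a r - e) ^ n) • u₀) := by
      have : ((a r - e) ^ n) • u₀ = (η'^[n]) u₀ - ((η'^[n]) u₀ - ((a r - e) ^ n) • u₀) := by abel
      rw [this]
      exact h1.sub (h2 n)
    have h5 : ¬ (p : ℤ) ∣ (a r - e) ^ n := fun h =>
      hne ((Nat.prime_iff_prime_int.mp hp).dvd_of_dvd_pow h)
    exact hu₀ (InP.of_zsmul hp h5 h4)
  · -- eigen mod `p` inside `ker β`
    intro i
    have hcommη : ∀ y, t' i (η' y) = η' (t' i y) := by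
      intro y
      rw [hη', eta'_apply, eta'_apply, map_sub, map_smul, hcomm]
    have hcommηn : ∀ j y, t' i ((η'^[j]) y) = (η'^[j]) (t' i y) := by
      intro j
      induction j with
      | zero => intro y; rfl
      | succ j ih =>
        intro y
        rw [Function.iterate_succ_apply', Function.iterate_succ_apply', hcommη, ih]
    have hη'smul : ∀ j (k : ℤ) y, (η'^[j]) (k • y) = k • (η'^[j]) y := by
      intro j
      induction j with
      | zero => intro k y; rfl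
      | succ j ih =>
        intro k y
        rw [Function.iterate_succ_apply', Function.iterate_succ_apply', ih, map_smul]
    have hη'sub : ∀ j y y', (η'^[j]) (y - y') = (η'^[j]) y - (η'^[j]) y' := by
      intro j
      induction j with
      | zero => intro y y'; rfl
      | succ j ih =>
        intro y y'
        rw [Function.iterate_succ_apply', Function.iterate_succ_apply',
          Function.iterate_succ_apply', ih, map_sub]
    obtain ⟨s, hs⟩ := heig i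
    set u := (η'^[n]) u₀ - (p : ℤ) • (z + w) with hu
    obtain ⟨L, hL⟩ : ∃ L : M' →ₗ[ℤ] M', ∀ y, (η'^[n]) y = L y :=
      ⟨η' ^ n, fun y => (Module.End.pow_apply η' n y).symm⟩
    have e2 : t' i u₀ = a i • u₀ + (p : ℤ) • s := by rw [← hs]; abel
    have h1 : t' i u - a i • u =
        (p : ℤ) • ((η'^[n]) s - (t' i (z + w) - a i • (z + w))) := by
      rw [hu, map_sub, map_smul, hcommηn, e2, hL, hL, hL, map_add, map_smul, map_smul, smul_sub,
        smul_sub, smul_sub, smul_comm (p : ℤ) (a i)]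
      abel
    refine ⟨(η'^[n]) s - (t' i (z + w) - a i • (z + w)), ?_, ?_, h1⟩
    · apply hM
      rw [← map_smul, ← h1, map_sub, map_smul, hβ₁]
      have hu1 : β₁ u = 0 := by
        have h := congrArg Prod.fst (show β u = 0 by
          rw [hu, map_sub, hβηn, hβu₀, hηPsmul, map_smul, hz', sub_self])
        exact h
      rw [hu1, map_zero, smul_zero, sub_zero]
    · apply hM
      rw [← map_smul, ← h1, map_sub, map_smul, hβ₂]
      have hu2 : β₂ u = 0 := by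
        have h := congrArg Prod.snd (show β u = 0 by
          rw [hu, map_sub, hβηn, hβu₀, hηPsmul, map_smul, hz', sub_self])
        exact h
      rw [hu2, map_zero, smul_zero, sub_zero]

end PartB


/-! ### Part C: dual Ihara from Ihara and perfect pairings -/

section PartC

variable (p : ℕ) (hp : p.Prime)

include hp in
/-- separation in a free `ℤ`-module: `v ∈ S + p P` as soon as every functional with
`φ S ⊆ p ℤ` has `p ∣ φ v`. -/
theorem exists_mem_inP_sub {P : Type*} [AddCommGroup P] [Module.Free ℤ P]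
    (S : Submodule ℤ P) (v : P)
    (h : ∀ φ : P →ₗ[ℤ] ℤ, (∀ s ∈ S, (p : ℤ) ∣ φ s) → (p : ℤ) ∣ φ v) :
    ∃ s ∈ S, InP p (v - s) := by
  classical
  have : Fact p.Prime := ⟨hp⟩
  -- the quotient by `S + p P`
  let N : Submodule ℤ P := S ⊔ (LinearMap.range ((p : ℤ) • (LinearMap.id : P →ₗ[ℤ] P)))
  have hpN : ∀ x : P, (p : ℤ) • x ∈ N := fun x =>
    Submodule.mem_sup_right ⟨x, rfl⟩
  have hkill : ∀ x : P ⧸ N, p • x = 0 := by
    intro x
    obtain ⟨y, rfl⟩ := Submodule.Quotient.mk_surjective N x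
    rw [← Submodule.Quotient.mk_smul, Submodule.Quotient.mk_eq_zero]
    have := hpN y
    rwa [natCast_zsmul] at this
  obtain ⟨inst⟩ : Nonempty (Module (ZMod p) (P ⧸ N)) := ⟨AddCommGroup.zmodModule hkill⟩
  by_cases hv : (Submodule.Quotient.mk v : P ⧸ N) = 0
  · rw [Submodule.Quotient.mk_eq_zero, Submodule.mem_sup] at hv
    obtain ⟨s, hs, y, ⟨y', rfl⟩, hsy⟩ := hv
    refine ⟨s, hs, y', ?_⟩
    rw [← hsy]
    simp
  · exfalso
    let bq := Module.Free.chooseBasis (ZMod p) (P ⧸ N)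
    obtain ⟨j, hj⟩ : ∃ j, bq.repr (Submodule.Quotient.mk v) j ≠ 0 := by
      by_contra hcon
      push Not at hcon
      apply hv
      apply bq.repr.injective
      rw [map_zero]
      exact Finsupp.ext hcon
    let f : (P ⧸ N) →ₗ[ZMod p] ZMod p := bq.coord j
    have hf : f (Submodule.Quotient.mk v) ≠ 0 := hj
    -- the additive map `P → ZMod p`
    let g : P →+ ZMod p := f.toAddMonoidHom.comp (N.mkQ).toAddMonoidHom
    have hg : ∀ x, g x = f (Submodule.Quotient.mk x) := fun x => rfl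
    -- lift to `ℤ`
    let b := Module.Free.chooseBasis ℤ P
    let φ : P →ₗ[ℤ] ℤ := b.constr ℤ (fun i => ((g (b i)).val : ℤ))
    have hφ : ∀ x, ((φ x : ℤ) : ZMod p) = g x := by
      have h1 : (Int.castAddHom (ZMod p)).comp φ.toAddMonoidHom = g := by
        have h2 : ((Int.castAddHom (ZMod p)).comp φ.toAddMonoidHom).toIntLinearMap =
            g.toIntLinearMap := by
          apply b.ext
          intro i
          show ((φ (b i) : ℤ) : ZMod p) = g (b i)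
          rw [Module.Basis.constr_basis]
          simp
        ext x
        exact congrArg (fun L : P →ₗ[ℤ] ZMod p => L x) h2
      intro x
      exact congrArg (fun L : P →+ ZMod p => L x) h1
    have hφS : ∀ s ∈ S, (p : ℤ) ∣ φ s := by
      intro s hs
      rw [← ZMod.intCast_zmod_eq_zero_iff_dvd, hφ, hg]
      have : (Submodule.Quotient.mk s : P ⧸ N) = 0 := by
        rw [Submodule.Quotient.mk_eq_zero]
        exact Submodule.mem_sup_left hs
      rw [this, map_zero]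
    have hφv := h φ hφS
    rw [← ZMod.intCast_zmod_eq_zero_iff_dvd, hφ, hg] at hφv
    exact hf hφv

include hp in
/-- **Part C.** Dual Ihara from Ihara and pairings that are perfect mod `p`:
`hperf` = every functional on `M` is represented mod `p`; `hnd'` = `B'` is nondegenerate mod `p`. -/
theorem dual_of_perfect [Module.Free ℤ M]
    (B : M →ₗ[ℤ] M →ₗ[ℤ] ℤ) (B' : M' →ₗ[ℤ] M' →ₗ[ℤ] ℤ)
    (tr : M →ₗ[ℤ] M) (e : ℤ) (α₁ α₂ : M →ₗ[ℤ] M') (β₁ β₂ : M' →ₗ[ℤ] M)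
    (hadj : ∀ x y z, B' (α₁ x + α₂ y) z = B x (β₁ z) + B y (β₂ z))
    (hself : ∀ x y, B (tr x) y = B x (tr y))
    (hperf : ∀ φ : M →ₗ[ℤ] ℤ, ∃ k : M, ∀ y, (p : ℤ) ∣ φ y - B k y)
    (hnd' : ∀ w : M', (∀ z, (p : ℤ) ∣ B' w z) → InP p w)
    (hIhara : ∀ x y : M, InP p (α₁ x + α₂ y) → InP p (tr x - e • x) ∧ InP p (tr y - e • y)) :
    ∀ x y : M, ∃ z : M', InP p (tr x - e • x - β₁ z) ∧ InP p (tr y - e • y - β₂ z) := by
  intro x y
  have key := exists_mem_inP_sub p hp (LinearMap.range (β₁.prod β₂))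
    ((tr x - e • x, tr y - e • y) : M × M) ?_
  · obtain ⟨s, ⟨z, rfl⟩, ⟨v', hv'⟩⟩ := key
    refine ⟨z, ⟨v'.1, ?_⟩, ⟨v'.2, ?_⟩⟩
    · exact congrArg Prod.fst hv'
    · exact congrArg Prod.snd hv'
  · intro φ hφ
    obtain ⟨k₁, hk₁⟩ := hperf (φ.comp (LinearMap.inl ℤ M M))
    obtain ⟨k₂, hk₂⟩ := hperf (φ.comp (LinearMap.inr ℤ M M))
    have hsplit : ∀ v : M × M, (p : ℤ) ∣ φ v - (B k₁ v.1 + B k₂ v.2) := by
      intro v
      have h1 : φ v = φ (v.1, 0) + φ (0, v.2) := by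
        rw [← map_add]
        simp
      have h2 : φ v - (B k₁ v.1 + B k₂ v.2) =
          (φ (v.1, 0) - B k₁ v.1) + (φ (0, v.2) - B k₂ v.2) := by
        rw [h1]; ring
      rw [h2]
      exact dvd_add (hk₁ v.1) (hk₂ v.2)
    have h1 : InP p (α₁ k₁ + α₂ k₂) := by
      apply hnd'
      intro z
      rw [hadj]
      have h3 := hφ ((β₁.prod β₂) z) ⟨z, rfl⟩
      have h4 := hsplit ((β₁.prod β₂) z)
      have h5 : B k₁ (β₁ z) + B k₂ (β₂ z) =
          φ ((β₁.prod β₂) z) - (φ ((β₁.prod β₂) z) - (B k₁ (β₁ z) + B k₂ (β₂ z))) := by ring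
      rw [h5]
      exact dvd_sub h3 h4
    obtain ⟨⟨k₁', hk₁'⟩, ⟨k₂', hk₂'⟩⟩ := hIhara k₁ k₂ h1
    have h2 : ∀ k z : M, B k (tr z - e • z) = B (tr k - e • k) z := by
      intro k z
      rw [map_sub, map_smul, map_sub, map_smul, LinearMap.sub_apply, LinearMap.smul_apply, hself]
    have h6 : (p : ℤ) ∣ B k₁ (tr x - e • x) + B k₂ (tr y - e • y) := by
      rw [h2, h2, hk₁', hk₂', map_smul, map_smul, LinearMap.smul_apply, LinearMap.smul_apply]
      exact ⟨B k₁' x + B k₂' y, by simp [mul_add]⟩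
    have h7 := hsplit ((tr x - e • x, tr y - e • y) : M × M)
    have h8 : φ ((tr x - e • x, tr y - e • y) : M × M) =
        (φ ((tr x - e • x, tr y - e • y) : M × M) -
          (B k₁ (tr x - e • x) + B k₂ (tr y - e • y))) +
          (B k₁ (tr x - e • x) + B k₂ (tr y - e • y)) := by ring
    rw [h8]
    exact dvd_add h7 h6

/-- the mod-`p` nondegeneracy used in `dual_of_perfect`, from unimodularity -/
theorem inP_of_unimodular (B' : M' →ₗ[ℤ] M' →ₗ[ℤ] ℤ)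
    (hperf : ∀ φ : M' →ₗ[ℤ] ℤ, ∃ k : M', ∀ y, φ y = B' k y)
    (hinj : ∀ w : M', (∀ z, B' w z = 0) → w = 0) (hp0 : p ≠ 0)
    (w : M') (hw : ∀ z, (p : ℤ) ∣ B' w z) : InP p w := by
  have hp0' : (p : ℤ) ≠ 0 := by exact_mod_cast hp0
  let φ : M' →ₗ[ℤ] ℤ :=
    { toFun := fun z => B' w z / (p : ℤ)
      map_add' := by
        intro a b
        show B' w (a + b) / (p : ℤ) = B' w a / (p : ℤ) + B' w b / (p : ℤ)
        rw [map_add, Int.add_ediv_of_dvd_left (hw a)]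
      map_smul' := by
        intro c a
        show B' w (c • a) / (p : ℤ) = c • (B' w a / (p : ℤ))
        rw [map_smul, smul_eq_mul, smul_eq_mul, Int.mul_ediv_assoc _ (hw a)] }
  obtain ⟨k, hk⟩ := hperf φ
  refine ⟨k, ?_⟩
  have h1 : ∀ z, B' (w - (p : ℤ) • k) z = 0 := by
    intro z
    rw [map_sub, map_smul, LinearMap.sub_apply, LinearMap.smul_apply, ← hk, smul_eq_mul]
    show B' w z - (p : ℤ) * (B' w z / (p : ℤ)) = 0
    rw [Int.mul_ediv_cancel' (hw z), sub_self]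
  exact sub_eq_zero.mp (hinj _ h1)

end PartC


/-! ### The assembled statement -/

section Assembled

variable (p : ℕ) (hp : p.Prime) {ι : Type*} (t : ι → M →ₗ[ℤ] M) (t' : ι → M' →ₗ[ℤ] M')
  (a : ι → ℤ) (T : M →ₗ[ℤ] M) (c ε : ℤ) (α₁ α₂ : M →ₗ[ℤ] M') (β₁ β₂ : M' →ₗ[ℤ] M)

include hp in
/-- **Level raising, abstract core** (pairings perfect mod `p`).  Betti lattices `M` (level `N`),
`M'` (level `N q'`) with pairings `B`, `B'`; good Hecke operators `t i`, `t' i`; `T = T_{q'}`;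
degeneracy maps with `β α = [[c, T], [T, c]]`, `α`, `β` adjoint, `t r` self-adjoint; **Ihara** for
the Eisenstein element `t r - e`; a mod-`p` eigenvector `m₀` of level `N` with eigenvalues `a i`,
`T m₀ ≡ ε c m₀`, `ε = ±1`, non-Eisenstein (`p ∤ a r - e`).  Then the `q'`-new lattice `ker β`
contains `u ∉ p M'` with `t' i u ≡ a i u` modulo `p • ker β` for all `i`. -/
theorem level_raising_core_mod_p [Module.Free ℤ M] [Module.Finite ℤ M]
    (hε : ε * ε = 1)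
    (hα₁ : ∀ i x, α₁ (t i x) = t' i (α₁ x)) (hα₂ : ∀ i x, α₂ (t i x) = t' i (α₂ x))
    (hβ₁ : ∀ i y, β₁ (t' i y) = t i (β₁ y)) (hβ₂ : ∀ i y, β₂ (t' i y) = t i (β₂ y))
    (h11 : ∀ x, β₁ (α₁ x) = c • x) (h12 : ∀ x, β₁ (α₂ x) = T x)
    (h21 : ∀ x, β₂ (α₁ x) = T x) (h22 : ∀ x, β₂ (α₂ x) = c • x)
    (r : ι) (e : ℤ) (hcomm : ∀ i y, t' i (t' r y) = t' r (t' i y))
    (hIhara : ∀ x y : M, InP p (α₁ x + α₂ y) → InP p (t r x - e • x) ∧ InP p (t r y - e • y))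
    (B : M →ₗ[ℤ] M →ₗ[ℤ] ℤ) (B' : M' →ₗ[ℤ] M' →ₗ[ℤ] ℤ)
    (hadj : ∀ x y z, B' (α₁ x + α₂ y) z = B x (β₁ z) + B y (β₂ z))
    (hself : ∀ x y, B (t r x) y = B x (t r y))
    (hperfp : ∀ φ : M →ₗ[ℤ] ℤ, ∃ k : M, ∀ y, (p : ℤ) ∣ φ y - B k y)
    (hnd' : ∀ w : M', (∀ z, (p : ℤ) ∣ B' w z) → InP p w)
    (m₀ : M) (hm₀ : ¬ InP p m₀) (heig : ∀ i, InP p (t i m₀ - a i • m₀))
    (hT : InP p (T m₀ - (ε * c) • m₀)) (hne : ¬ (p : ℤ) ∣ a r - e) :
    ∃ u : M', β₁ u = 0 ∧ β₂ u = 0 ∧ ¬ InP p u ∧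
      ∀ i, ∃ z : M', β₁ z = 0 ∧ β₂ z = 0 ∧ t' i u - a i • u = (p : ℤ) • z := by
  have hA := exists_mod_p_new p hp t t' a T c ε α₁ α₂ β₁ β₂ hε hα₁ hα₂ h11 h12 h21 h22 r e hIhara
    m₀ hm₀ heig hT hne
  obtain ⟨hu₀, hb1, hb2, heig'⟩ := hA
  have hDual := dual_of_perfect p hp B B' (t r) e α₁ α₂ β₁ β₂ hadj hself hperfp hnd' hIhara
  have hM : ∀ x : M, (p : ℤ) • x = 0 → x = 0 := by
    intro x hx
    have hp0 : (p : ℤ) ≠ 0 := by exact_mod_cast hp.ne_zero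
    exact (smul_eq_zero.mp hx).resolve_left hp0
  have : IsNoetherian ℤ M := isNoetherian_of_isNoetherianRing_of_finite ℤ M
  exact exists_new_eigen p hp t t' a β₁ β₂ hM hβ₁ hβ₂ r e hcomm hDual _ hu₀ hb1 hb2 heig' hne

include hp in
/-- **Level raising, abstract core** (unimodular pairings). -/
theorem level_raising_core [Module.Free ℤ M] [Module.Finite ℤ M]
    (hε : ε * ε = 1)
    (hα₁ : ∀ i x, α₁ (t i x) = t' i (α₁ x)) (hα₂ : ∀ i x, α₂ (t i x) = t' i (α₂ x))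
    (hβ₁ : ∀ i y, β₁ (t' i y) = t i (β₁ y)) (hβ₂ : ∀ i y, β₂ (t' i y) = t i (β₂ y))
    (h11 : ∀ x, β₁ (α₁ x) = c • x) (h12 : ∀ x, β₁ (α₂ x) = T x)
    (h21 : ∀ x, β₂ (α₁ x) = T x) (h22 : ∀ x, β₂ (α₂ x) = c • x)
    (r : ι) (e : ℤ) (hcomm : ∀ i y, t' i (t' r y) = t' r (t' i y))
    (hIhara : ∀ x y : M, InP p (α₁ x + α₂ y) → InP p (t r x - e • x) ∧ InP p (t r y - e • y))
    (B : M →ₗ[ℤ] M →ₗ[ℤ] ℤ) (B' : M' →ₗ[ℤ] M' →ₗ[ℤ] ℤ)
    (hadj : ∀ x y z, B' (α₁ x + α₂ y) z = B x (β₁ z) + B y (β₂ z))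
    (hself : ∀ x y, B (t r x) y = B x (t r y))
    (hperf : ∀ φ : M →ₗ[ℤ] ℤ, ∃ k : M, ∀ y, φ y = B k y)
    (hperf' : ∀ φ : M' →ₗ[ℤ] ℤ, ∃ k : M', ∀ y, φ y = B' k y)
    (hinj' : ∀ w : M', (∀ z, B' w z = 0) → w = 0)
    (m₀ : M) (hm₀ : ¬ InP p m₀) (heig : ∀ i, InP p (t i m₀ - a i • m₀))
    (hT : InP p (T m₀ - (ε * c) • m₀)) (hne : ¬ (p : ℤ) ∣ a r - e) :
    ∃ u : M', β₁ u = 0 ∧ β₂ u = 0 ∧ ¬ InP p u ∧
      ∀ i, ∃ z : M', β₁ z = 0 ∧ β₂ z = 0 ∧ t' i u - a i • u = (p : ℤ) • z := by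
  have hnd' : ∀ w : M', (∀ z, (p : ℤ) ∣ B' w z) → InP p w :=
    inP_of_unimodular p B' hperf' hinj' hp.ne_zero
  have hperfp : ∀ φ : M →ₗ[ℤ] ℤ, ∃ k : M, ∀ y, (p : ℤ) ∣ φ y - B k y := by
    intro φ
    obtain ⟨k, hk⟩ := hperf φ
    exact ⟨k, fun y => by rw [hk y, sub_self]; exact dvd_zero _⟩
  exact level_raising_core_mod_p p hp t t' a T c ε α₁ α₂ β₁ β₂ hε hα₁ hα₂ hβ₁ hβ₂ h11 h12 h21 h22
    r e hcomm hIhara B B' hadj hself hperfp hnd' m₀ hm₀ heig hT hne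

end Assembled

end Fermat.Agent.S41.CongModule
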