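import Mathlib
import Fermat.Agent.S30.Hecke.Parabolic

/-!
# PROJECT R (S41), slice R-EisCong: a congruence homomorphism is Eisenstein

`φ : Additive (Γ₀(N)) →+ A` (any abelian group `A`) that vanishes on `Γ₀(N) ∩ Γ(M)` satisfies
`τ_r φ = (r + 1) • φ` for every prime `r ∤ N` with `r ≡ 1 mod M`, where `τ_r = tauAll N r`
is the double-coset operator of PROJECT J (`S30/Hecke/Gamma0Cosets`).

Proof.  The representatives `[1, j; 0, r]`, `[r, 0; 0, 1]` of `T_r` are congruent modulo `M` to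
`u j = [1, j; 0, 1]`, resp. `1`, which lie in `Γ₀(N)`.  The relation
`rep x * g = coc g x * rep (perm g x)` therefore gives
`coc g x ≡ u x * g * (u (perm g x))⁻¹ mod M`, hence
`φ (coc g x) = φ (u x) + φ g - φ (u (perm g x))`, and the sum over `x` telescopes along the
permutation `perm g`.
-/

set_option autoImplicit false
set_option linter.unusedSectionVars false

open CongruenceSubgroup Matrix.SpecialLinearGroup ModularForm
open scoped MatrixGroups

noncomputable section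

namespace Fermat.Agent.S41.EisCong

open Fermat.Agent.S30.Hecke.DoubleCoset Fermat.Agent.S30.Hecke.Gamma0Cosets

variable {N : ℕ}

/-- from the relation in `GL₂(ℝ)` to the integral relation (with a group element on both sides) -/
theorem relZ_of_rel_mul {p : ℕ} (hp : p ≠ 0) {x x' : Option (Fin p)} {g g' : Gamma0 N}
    (h : repT p x * iota N g = iota N g' * repT p x') :
    repZ p x * ((g : SL(2, ℤ)) : Matrix (Fin 2) (Fin 2) ℤ) =
      ((g' : SL(2, ℤ)) : Matrix (Fin 2) (Fin 2) ℤ) * repZ p x' := by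
  have h1 := congrArg (fun u : GL (Fin 2) ℝ => (u : Matrix (Fin 2) (Fin 2) ℝ)) h
  simp only [Units.val_mul] at h1
  rw [coe_repT hp, coe_repT hp, coe_iota', coe_iota', ← Matrix.map_mul, ← Matrix.map_mul] at h1
  exact Matrix.map_injective (Int.cast_injective (α := ℝ)) h1

/-- the translation attached to a representative -/
def jZ {r : ℕ} : Option (Fin r) → ℤ
  | some j => ((j : ℕ) : ℤ)
  | none => 0

/-- the unipotent element `[1, j; 0, 1]` of `Γ₀(N)` -/
def uG (N : ℕ) (j : ℤ) : Gamma0 N := mkGamma0 N 1 j 0 1 (by ring) (dvd_zero _)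

theorem coe_uG (N : ℕ) (j : ℤ) :
    (((uG N j : Gamma0 N) : SL(2, ℤ)) : Matrix (Fin 2) (Fin 2) ℤ) = !![1, j; 0, 1] := rfl

/-- modulo `M`, with `r ≡ 1`, the representative `repZ r x` is the unipotent `uG (jZ x)` -/
theorem repZ_map_eq {M r : ℕ} (hr1 : (r : ZMod M) = 1) (x : Option (Fin r)) :
    (repZ r x).map (Int.castRingHom (ZMod M)) =
      (((uG N (jZ x) : Gamma0 N) : SL(2, ℤ)) : Matrix (Fin 2) (Fin 2) ℤ).map
        (Int.castRingHom (ZMod M)) := by
  rw [coe_uG]
  rcases x with _ | j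
  · ext i k
    fin_cases i <;> fin_cases k <;> simp [repZ, jZ, hr1]
  · ext i k
    fin_cases i <;> fin_cases k <;> simp [repZ, jZ, hr1]

/-- the reduction modulo `M` of an element of `SL(2, ℤ)`, as a matrix -/
theorem coe_map_castRingHom (M : ℕ) (γ : SL(2, ℤ)) :
    ((Matrix.SpecialLinearGroup.map (Int.castRingHom (ZMod M)) γ : SL(2, ZMod M)) :
      Matrix (Fin 2) (Fin 2) (ZMod M)) =
      (γ : Matrix (Fin 2) (Fin 2) ℤ).map (Int.castRingHom (ZMod M)) := rfl

/-- **the cocycle modulo `M`** -/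
theorem coc_mul_inv_mem_Gamma {M r : ℕ} (hr : r.Prime) (hrN : ¬ r ∣ N)
    (hr1 : (r : ZMod M) = 1) (g : Gamma0 N) (x : Option (Fin r)) :
    (((cosetT hr hrN).coc g x * (uG N (jZ x) * g *
      (uG N (jZ ((cosetT hr hrN).perm g x)))⁻¹)⁻¹ : Gamma0 N) : SL(2, ℤ)) ∈ Gamma M := by
  set D := cosetT hr hrN with hD
  have hrel := D.rel g x
  rw [hD, cosetT_rep, ← hD] at hrel
  have hZ := relZ_of_rel_mul hr.ne_zero hrel
  -- reduce modulo `M`
  have hM := congrArg (fun m : Matrix (Fin 2) (Fin 2) ℤ => m.map (Int.castRingHom (ZMod M))) hZ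
  simp only [Matrix.map_mul] at hM
  rw [repZ_map_eq (N := N) hr1 x, repZ_map_eq (N := N) hr1 (D.perm g x)] at hM
  rw [Gamma_mem']
  set F := Matrix.SpecialLinearGroup.map (n := Fin 2) (Int.castRingHom (ZMod M)) with hF
  -- the relation in `SL(2, ZMod M)`
  have hSL : F ((uG N (jZ x) : Gamma0 N) : SL(2, ℤ)) * F (g : SL(2, ℤ)) =
      F ((D.coc g x : Gamma0 N) : SL(2, ℤ)) *
        F ((uG N (jZ (D.perm g x)) : Gamma0 N) : SL(2, ℤ)) := by
    apply Subtype.ext
    rw [Matrix.SpecialLinearGroup.coe_mul, Matrix.SpecialLinearGroup.coe_mul]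
    rw [hF, coe_map_castRingHom, coe_map_castRingHom, coe_map_castRingHom, coe_map_castRingHom]
    exact hM
  have hco : ((D.coc g x * (uG N (jZ x) * g * (uG N (jZ (D.perm g x)))⁻¹)⁻¹ : Gamma0 N) :
      SL(2, ℤ)) = (D.coc g x : SL(2, ℤ)) *
        (((uG N (jZ x) : Gamma0 N) : SL(2, ℤ)) * (g : SL(2, ℤ)) *
          ((uG N (jZ (D.perm g x)) : Gamma0 N) : SL(2, ℤ))⁻¹)⁻¹ := by
    push_cast
    rfl
  rw [hco, map_mul, map_inv, map_mul, map_mul, map_inv, hSL]
  group

variable {A : Type*} [AddCommGroup A]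

/-- the value of a congruence homomorphism on the cocycle -/
theorem map_coc_eq {M r : ℕ} (hr : r.Prime) (hrN : ¬ r ∣ N) (hr1 : (r : ZMod M) = 1)
    (φ : Additive (Gamma0 N) →+ A)
    (hφ : ∀ g : Gamma0 N, (g : SL(2, ℤ)) ∈ Gamma M → φ (Additive.ofMul g) = 0)
    (g : Gamma0 N) (x : Option (Fin r)) :
    φ (Additive.ofMul ((cosetT hr hrN).coc g x)) =
      φ (Additive.ofMul g) + (φ (Additive.ofMul (uG N (jZ x))) -
        φ (Additive.ofMul (uG N (jZ ((cosetT hr hrN).perm g x))))) := by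
  have h := hφ _ (coc_mul_inv_mem_Gamma hr hrN hr1 g x)
  rw [ofMul_mul, map_add, ofMul_inv, map_neg, ofMul_mul, ofMul_mul, map_add, map_add, ofMul_inv,
    map_neg] at h
  have h2 := sub_eq_zero.mp (by rw [← h]; abel :
    φ (Additive.ofMul ((cosetT hr hrN).coc g x)) -
      (φ (Additive.ofMul (uG N (jZ x))) + φ (Additive.ofMul g) +
        -φ (Additive.ofMul (uG N (jZ ((cosetT hr hrN).perm g x))))) = 0)
  rw [h2]
  abel

/-- **a congruence homomorphism is Eisenstein**: if `φ` vanishes on `Γ₀(N) ∩ Γ(M)`, then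
`τ_r φ = (r + 1) • φ` for every prime `r ∤ N`, `r ≡ 1 mod M` -/
theorem tauAll_eq_of_congruence (N M r : ℕ) (hr : r.Prime) (hrN : ¬ r ∣ N)
    (hr1 : (r : ZMod M) = 1) (φ : Additive (Gamma0 N) →+ A)
    (hφ : ∀ g : Gamma0 N, (g : SL(2, ℤ)) ∈ Gamma M → φ (Additive.ofMul g) = 0) :
    tauAll N r hr φ = (r + 1) • φ := by
  unfold tauAll
  rw [dif_neg hrN]
  refine AddMonoidHom.ext fun g' => ?_
  obtain ⟨g, rfl⟩ : ∃ g : Gamma0 N, Additive.ofMul g = g' := ⟨Additive.toMul g', rfl⟩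
  show (cosetT hr hrN).heckeHom φ (Additive.ofMul g) = _
  rw [CosetData.heckeHom_apply]
  rw [Finset.sum_congr rfl fun x _ => map_coc_eq hr hrN hr1 φ hφ g x]
  rw [Finset.sum_add_distrib, Finset.sum_sub_distrib]
  rw [Equiv.sum_comp ((cosetT hr hrN).perm g) (fun y => φ (Additive.ofMul (uG N (jZ y))))]
  rw [sub_self, add_zero, Finset.sum_const, Finset.card_univ, Fintype.card_option,
    Fintype.card_fin]
  rfl

end Fermat.Agent.S41.EisCong
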