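/-
PROJECT R (S41, level raising), slice R-M4b (abstract part, helper2): from a mod-`p` eigenvector
inside a Hecke-stable sublattice `K` (the `q'`-new lattice) to a characteristic-zero joint
eigenvector of ALL the commuting operators in `ℂ ⊗ K`, with eigenvalues in `ℤ̄` congruent to the
given integers at the good operators.  Deligne-Serre lifting (`S49/DeligneSerre`) + a common
eigenvector of a commuting family (`S35/CommonEigen`).
-/
import Mathlib
import Fermat.Agent.S41.CongModule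
import Fermat.Agent.S49.DeligneSerre
import Fermat.Agent.S35.CommonEigen

set_option autoImplicit false
set_option linter.unusedSectionVars false
set_option linter.style.haveILetI false

namespace Fermat.Agent.S41.LiftAbs

open scoped TensorProduct IsMulCommutative
open Fermat.Agent.S41.CongModule Fermat.Agent.S49.DeligneSerre

local notation "Zb" => integralClosure ℤ ℂ

section Lattice

variable {K : Type*} [AddCommGroup K]

/-- `k ↦ 1 ⊗ k` -/
def incl : K →ₗ[ℤ] ℂ ⊗[ℤ] K := TensorProduct.mk ℤ ℂ K 1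

theorem incl_apply (k : K) : incl k = (1 : ℂ) ⊗ₜ[ℤ] k := rfl

/-- the lattice `1 ⊗ K` -/
def lat : Submodule ℤ (ℂ ⊗[ℤ] K) := LinearMap.range (incl (K := K))

theorem mem_lat {x : ℂ ⊗[ℤ] K} : x ∈ lat (K := K) ↔ ∃ k : K, (1 : ℂ) ⊗ₜ[ℤ] k = x := Iff.rfl

theorem lat_fg [Module.Finite ℤ K] : (lat (K := K)).FG := by
  unfold lat
  rw [LinearMap.range_eq_map]
  exact Submodule.FG.map _ Module.Finite.fg_top

theorem lat_span : Submodule.span ℂ ((lat (K := K) : Submodule ℤ (ℂ ⊗[ℤ] K)) : Set (ℂ ⊗[ℤ] K)) = ⊤ := by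
  rw [eq_top_iff]
  intro x _
  clear ‹x ∈ (⊤ : Submodule ℂ (ℂ ⊗[ℤ] K))›
  induction x using TensorProduct.induction_on with
  | zero => exact Submodule.zero_mem _
  | tmul c k =>
    have h : c ⊗ₜ[ℤ] k = c • ((1 : ℂ) ⊗ₜ[ℤ] k) := by
      rw [TensorProduct.smul_tmul', smul_eq_mul, mul_one]
    rw [h]
    exact Submodule.smul_mem _ c (Submodule.subset_span ⟨k, rfl⟩)
  | add x y hx hy => exact Submodule.add_mem _ hx hy

theorem baseChange_mem_lat (e : K →ₗ[ℤ] K) {x : ℂ ⊗[ℤ] K} (hx : x ∈ lat (K := K)) :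
    e.baseChange ℂ x ∈ lat (K := K) := by
  obtain ⟨k, rfl⟩ := hx
  refine ⟨e k, ?_⟩
  show (1 : ℂ) ⊗ₜ[ℤ] e k = e.baseChange ℂ ((1 : ℂ) ⊗ₜ[ℤ] k)
  rw [LinearMap.baseChange_tmul]

end Lattice


section Integral

variable {V : Type*} [AddCommGroup V] [Module ℂ V]

/-- an eigenvalue of an integral endomorphism is integral -/
theorem isIntegral_eigenvalue {e : Module.End ℂ V} (he : IsIntegral ℤ e) {v : V} (hv : v ≠ 0)
    {c : ℂ} (hc : e v = c • v) : IsIntegral ℤ c := by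
  obtain ⟨P, hP, hP0⟩ := he
  refine ⟨P, hP, ?_⟩
  have h1 : Polynomial.aeval e (P.map (algebraMap ℤ ℂ)) = 0 := by
    rw [Polynomial.aeval_map_algebraMap]
    exact hP0
  have hvec : e.HasEigenvector c v := ⟨Module.End.mem_eigenspace_iff.mpr hc, hv⟩
  have h2 := Module.End.aeval_apply_of_hasEigenvector (p := P.map (algebraMap ℤ ℂ)) hvec
  rw [h1, LinearMap.zero_apply] at h2
  have h3 : (P.map (algebraMap ℤ ℂ)).eval c = 0 := by
    rcases smul_eq_zero.mp h2.symm with h | h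
    · exact h
    · exact absurd h hv
  rw [Polynomial.eval_map] at h3
  exact h3

end Integral


section Main

variable {M' : Type*} [AddCommGroup M'] [Module.Free ℤ M'] [Module.Finite ℤ M']

/-- **Abstract lift.**  `K ≤ M'` a sublattice stable under a commuting family `s j`; `u ∈ K`,
`u ∉ p M'`, with `s j u ≡ a j u` modulo `p K` for the good `j`.  Then `ℂ ⊗ K ⊆ ℂ ⊗ M'` contains a
joint eigenvector of all the `s j`, eigenvalues in `ℤ̄`, congruent to `a j` modulo a maximal ideal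
over `p` at the good `j`. -/
theorem exists_lift (K : Submodule ℤ M') (p : ℕ) (hp : p.Prime)
    {J : Type*} (s : J → M' →ₗ[ℤ] M') (hs : ∀ j k x, s j (s k x) = s k (s j x))
    (hK : ∀ j, ∀ x ∈ K, s j x ∈ K) (good : Set J) (a : J → ℤ)
    (u : M') (huK : u ∈ K) (hu : ¬ InP p u)
    (heig : ∀ j ∈ good, ∃ z ∈ K, s j u - a j • u = (p : ℤ) • z) :
    ∃ (w : ℂ ⊗[ℤ] M') (ϑ : J → Zb) (𝔪' : Ideal Zb),
      w ≠ 0 ∧ w ∈ LinearMap.range (K.subtype.baseChange ℂ) ∧ 𝔪'.IsMaximal ∧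
      ((p : ℕ) : Zb) ∈ 𝔪' ∧ (∀ j, (s j).baseChange ℂ w = ((ϑ j : Zb) : ℂ) • w) ∧
      ∀ j ∈ good, ϑ j - ((a j : ℤ) : Zb) ∈ 𝔪' := by
  classical
  -- operators on `K` and on `V = ℂ ⊗ K`
  set sK : J → (K →ₗ[ℤ] K) := fun j => (s j).restrict (hK j) with hsK
  set sV : J → Module.End ℂ (ℂ ⊗[ℤ] K) := fun j => (sK j).baseChange ℂ with hsV
  have hsK_apply : ∀ j (k : K), ((sK j k : K) : M') = s j (k : M') := fun j k => rfl
  have hsV_incl : ∀ j (k : K), sV j (incl k) = incl (sK j k) := by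
    intro j k
    show (sK j).baseChange ℂ ((1 : ℂ) ⊗ₜ[ℤ] k) = (1 : ℂ) ⊗ₜ[ℤ] sK j k
    rw [LinearMap.baseChange_tmul]
  have hcommK : ∀ j k, sK j ∘ₗ sK k = sK k ∘ₗ sK j := by
    intro j k
    ext x
    show ((sK j (sK k x) : K) : M') = ((sK k (sK j x) : K) : M')
    rw [hsK_apply, hsK_apply, hsK_apply, hsK_apply, hs]
  have hcommV : ∀ j k, sV j * sV k = sV k * sV j := by
    intro j k
    show (sK j).baseChange ℂ ∘ₗ (sK k).baseChange ℂ = (sK k).baseChange ℂ ∘ₗ (sK j).baseChange ℂ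
    rw [← LinearMap.baseChange_comp, ← LinearMap.baseChange_comp, hcommK]
  -- the lattice
  have hLfg : (lat (K := K)).FG := lat_fg
  have hLspan := lat_span (K := K)
  have hsVL : ∀ j, ∀ x ∈ lat (K := K), sV j x ∈ lat (K := K) := fun j x hx =>
    baseChange_mem_lat (sK j) hx
  have hfinV : Module.Finite ℂ (ℂ ⊗[ℤ] K) := finite_of_lattice _ hLfg hLspan
  -- the commutative algebra generated by the good operators
  set gens : Set (Module.End ℂ (ℂ ⊗[ℤ] K)) := sV '' good with hgens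
  have hgcomm : ∀ x ∈ gens, ∀ y ∈ gens, x * y = y * x := by
    rintro _ ⟨j, -, rfl⟩ _ ⟨k, -, rfl⟩
    exact hcommV j k
  haveI : IsMulCommutative (Algebra.adjoin ℤ gens) := Algebra.isMulCommutative_adjoin ℤ hgcomm
  letI : CommRing (Algebra.adjoin ℤ gens) := inferInstance
  set ρ : (Algebra.adjoin ℤ gens) →+* Module.End ℂ (ℂ ⊗[ℤ] K) :=
    (Algebra.adjoin ℤ gens).val.toRingHom with hρ
  have hρ_apply : ∀ t : Algebra.adjoin ℤ gens, ρ t = (t : Module.End ℂ (ℂ ⊗[ℤ] K)) := fun t => rfl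
  -- `T` preserves the lattice
  have hTL' : ∀ e ∈ Algebra.adjoin ℤ gens, ∀ x ∈ lat (K := K), e x ∈ lat (K := K) := by
    intro e he
    induction he using Algebra.adjoin_induction with
    | mem e he =>
      obtain ⟨j, -, rfl⟩ := he
      exact hsVL j
    | algebraMap n =>
      intro x hx
      rw [Algebra.algebraMap_eq_smul_one, LinearMap.smul_apply, Module.End.one_apply]
      exact Submodule.smul_mem _ n hx
    | add e e' _ _ h h' =>
      intro x hx
      rw [LinearMap.add_apply]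
      exact Submodule.add_mem _ (h x hx) (h' x hx)
    | mul e e' _ _ h h' =>
      intro x hx
      rw [Module.End.mul_apply]
      exact h _ (h' x hx)
  have hTL : ∀ t : Algebra.adjoin ℤ gens, ∀ x ∈ lat (K := K), ρ t x ∈ lat (K := K) :=
    fun t x hx => hTL' t.1 t.2 x hx
  -- the vector `f₀`
  set uK : K := ⟨u, huK⟩ with huKdef
  set f₀ : ℂ ⊗[ℤ] K := incl uK with hf₀def
  have hf₀ : f₀ ∈ lat (K := K) := ⟨uK, rfl⟩
  -- a coordinate of `u` prime to `p`
  set b := Module.Free.chooseBasis ℤ K with hb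
  obtain ⟨i₀, hi₀⟩ : ∃ i, ¬ (p : ℤ) ∣ b.repr uK i := by
    by_contra hcon
    push Not at hcon
    apply hu
    choose d hd using hcon
    have hsupp : ∀ i, d i ≠ 0 → i ∈ (b.repr uK).support := by
      intro i hdi
      rw [Finsupp.mem_support_iff, hd i]
      have hp0 : (p : ℤ) ≠ 0 := by exact_mod_cast hp.ne_zero
      exact mul_ne_zero hp0 hdi
    let D : (Module.Free.ChooseBasisIndex ℤ K) →₀ ℤ :=
      Finsupp.onFinset (b.repr uK).support d hsupp
    have hD : b.repr uK = (p : ℤ) • D := by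
      ext i
      rw [Finsupp.smul_apply, Finsupp.onFinset_apply, smul_eq_mul, hd i]
    refine ⟨((b.repr.symm D : K) : M'), ?_⟩
    have h1 : uK = (p : ℤ) • b.repr.symm D := by
      apply b.repr.injective
      rw [hD, map_smul, LinearEquiv.apply_symm_apply]
    have h2 := congrArg (fun k : K => (k : M')) h1
    simpa using h2
  -- the functional
  set bV := b.baseChange ℂ with hbV
  set φ : (ℂ ⊗[ℤ] K) →ₗ[ℂ] ℂ := bV.coord i₀ with hφ
  have hφ_incl : ∀ k : K, φ (incl k) = ((b.repr k i₀ : ℤ) : ℂ) := by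
    intro k
    show bV.repr ((1 : ℂ) ⊗ₜ[ℤ] k) i₀ = _
    rw [hbV, Module.Basis.baseChange_repr_tmul]
    simp
  have hφL : ∀ x ∈ lat (K := K), ∃ m : ℤ, φ x = m := by
    rintro _ ⟨k, rfl⟩
    exact ⟨b.repr k i₀, hφ_incl k⟩
  have hφf₀ : φ f₀ = ((b.repr uK i₀ : ℤ) : ℂ) := hφ_incl uK
  -- the generators are eigen mod `p`
  have hgen : ∀ j ∈ good, ∃ g ∈ lat (K := K), sV j f₀ - ((a j : ℤ) : ℂ) • f₀ = (p : ℂ) • g := by
    intro j hj
    obtain ⟨z, hzK, hz⟩ := heig j hj
    refine ⟨incl (⟨z, hzK⟩ : K), ⟨_, rfl⟩, ?_⟩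
    have h1 : sK j uK - a j • uK = (p : ℤ) • (⟨z, hzK⟩ : K) := by
      apply Subtype.ext
      show s j u - a j • u = (p : ℤ) • z
      exact hz
    rw [hf₀def, hsV_incl]
    have h2 : incl (sK j uK) - ((a j : ℤ) : ℂ) • incl uK = incl (sK j uK - a j • uK) := by
      rw [map_sub, map_smul, Int.cast_smul_eq_zsmul]
    rw [h2, h1, map_smul, ← Int.cast_smul_eq_zsmul ℂ]
    push_cast
    rfl
  -- eigen mod `p` for all of `T`
  have hc' : ∀ e ∈ Algebra.adjoin ℤ gens, ∃ c : ℤ, ∃ g ∈ lat (K := K),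
      e f₀ - (c : ℂ) • f₀ = (p : ℂ) • g := by
    intro e he
    induction he using Algebra.adjoin_induction with
    | mem e he =>
      obtain ⟨j, hj, rfl⟩ := he
      obtain ⟨g, hg, hgeq⟩ := hgen j hj
      exact ⟨a j, g, hg, hgeq⟩
    | algebraMap n =>
      refine ⟨n, 0, Submodule.zero_mem _, ?_⟩
      rw [Algebra.algebraMap_eq_smul_one, LinearMap.smul_apply, Module.End.one_apply, smul_zero,
        Int.cast_smul_eq_zsmul, sub_self]
    | add e e' _ _ h h' =>
      obtain ⟨c, g, hg, hcg⟩ := h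
      obtain ⟨c', g', hg', hcg'⟩ := h'
      refine ⟨c + c', g + g', Submodule.add_mem _ hg hg', ?_⟩
      rw [LinearMap.add_apply, smul_add, ← hcg, ← hcg']
      push_cast
      rw [add_smul]
      abel
    | mul e e' he he' h h' =>
      obtain ⟨c, g, hg, hcg⟩ := h
      obtain ⟨c', g', hg', hcg'⟩ := h'
      refine ⟨c * c', c' • g + e g', Submodule.add_mem _ (Submodule.smul_mem _ c' hg)
        (hTL' e he g' hg'), ?_⟩
      have h1 : e' f₀ = (c' : ℂ) • f₀ + (p : ℂ) • g' := by rw [← hcg']; abel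
      have h2 : e f₀ = (c : ℂ) • f₀ + (p : ℂ) • g := by rw [← hcg]; abel
      rw [Module.End.mul_apply, h1, map_add, map_smul, map_smul, h2,
        ← Int.cast_smul_eq_zsmul ℂ c' g]
      push_cast
      module
  have hc : ∀ t : Algebra.adjoin ℤ gens, ∃ c : ℤ, ∃ g ∈ lat (K := K),
      ρ t f₀ - (c : ℂ) • f₀ = (p : ℂ) • g := fun t => hc' t.1 t.2
  -- Deligne-Serre
  obtain ⟨w₁, θ, 𝔪', hw₁, hmax, hpm, hθeig, hθcong⟩ :=
    exists_eigenvector_lift hp ρ (lat (K := K)) hLfg hLspan hTL φ hφL f₀ hf₀ (b.repr uK i₀) hφf₀ hi₀ hc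
  -- the generators as elements of `T`
  have hgenmem : ∀ j ∈ good, sV j ∈ Algebra.adjoin ℤ gens := fun j hj =>
    Algebra.subset_adjoin ⟨j, hj, rfl⟩
  -- the joint eigenspace of the good operators
  let E : Submodule ℂ (ℂ ⊗[ℤ] K) :=
    { carrier := {v | ∀ j (hj : j ∈ good), sV j v = ((θ ⟨sV j, hgenmem j hj⟩ : Zb) : ℂ) • v}
      add_mem' := by
        intro x y hx hy j hj
        rw [map_add, hx j hj, hy j hj, smul_add]
      zero_mem' := by
        intro j hj
        rw [map_zero, smul_zero]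
      smul_mem' := by
        intro c x hx j hj
        rw [map_smul, hx j hj, smul_comm] }
  have hw₁E : w₁ ∈ E := fun j hj => hθeig ⟨sV j, hgenmem j hj⟩
  have hEbot : E ≠ ⊥ := fun h => hw₁ (by rw [h] at hw₁E; exact hw₁E)
  have hEstab : ∀ k, ∀ v ∈ E, sV k v ∈ E := by
    intro k v hv j hj
    have h1 : sV j (sV k v) = sV k (sV j v) := by
      have := congrArg (fun e : Module.End ℂ (ℂ ⊗[ℤ] K) => e v) (hcommV j k)
      simpa using this
    rw [h1, hv j hj, map_smul]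
  obtain ⟨w₂, hw₂E, hw₂, hw₂eig⟩ :=
    Fermat.Agent.S35.CommonEigen.exists_common_eigenvector sV hcommV E hEbot hEstab
  choose cc hcc using hw₂eig
  have hccint : ∀ j, IsIntegral ℤ (cc j) := fun j =>
    isIntegral_eigenvalue
      (isIntegral_of_preserves_lattice (lat (K := K)) hLfg hLspan (sV j) (hsVL j)) hw₂ (hcc j)
  -- the result
  refine ⟨K.subtype.baseChange ℂ w₂, fun j => ⟨cc j, hccint j⟩, 𝔪', ?_, ⟨w₂, rfl⟩, hmax, hpm, ?_, ?_⟩
  · intro h0
    apply hw₂
    have hinj : Function.Injective (K.subtype.baseChange ℂ) :=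
      Module.Flat.lTensor_preserves_injective_linearMap (M := ℂ) K.subtype K.injective_subtype
    exact hinj (by rw [h0, map_zero])
  · intro j
    have h1 : (s j).baseChange ℂ ∘ₗ K.subtype.baseChange ℂ =
        K.subtype.baseChange ℂ ∘ₗ (sK j).baseChange ℂ := by
      rw [← LinearMap.baseChange_comp, ← LinearMap.baseChange_comp]
      congr 1
    have h2 := congrArg (fun e : (ℂ ⊗[ℤ] K) →ₗ[ℂ] (ℂ ⊗[ℤ] M') => e w₂) h1
    simp only [LinearMap.comp_apply] at h2
    rw [h2]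
    show K.subtype.baseChange ℂ (sV j w₂) = _
    rw [hcc j, map_smul]
  · intro j hj
    have h1 : cc j = ((θ ⟨sV j, hgenmem j hj⟩ : Zb) : ℂ) := by
      have h2 := hw₂E j hj
      rw [hcc j] at h2
      have h3 : (cc j - ((θ ⟨sV j, hgenmem j hj⟩ : Zb) : ℂ)) • w₂ = 0 := by
        rw [sub_smul, h2, sub_self]
      rcases smul_eq_zero.mp h3 with h | h
      · exact sub_eq_zero.mp h
      · exact absurd h hw₂
    have h4 : (⟨cc j, hccint j⟩ : Zb) = θ ⟨sV j, hgenmem j hj⟩ := Subtype.ext h1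
    obtain ⟨g, hg, hgeq⟩ := hgen j hj
    have h5 := hθcong ⟨sV j, hgenmem j hj⟩ (a j) ⟨g, hg, hgeq⟩
    show (⟨cc j, hccint j⟩ : Zb) - ((a j : ℤ) : Zb) ∈ 𝔪'
    rw [h4]
    exact h5

end Main

end Fermat.Agent.S41.LiftAbs
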