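/-
PROJECT R (S41, level raising), slice R-M4a (helper12): reduction of a complex eigenvector to a
mod-`p` eigenvector in a lattice.  Mathlib + `S41/CongModule` (for `InP`) only.

`M` a finite free `ℤ`-module with commuting endomorphisms `t i`; `w ≠ 0` in `ℂ ⊗ M` a common
eigenvector with eigenvalues the algebraic integers `θ i`; `𝔪` a maximal ideal of `ℤ̄` above `p`
with `θ i ≡ a i mod 𝔪`, `a i ∈ ℤ`.  Then there is `m₀ ∈ M`, `m₀ ∉ p M`, with
`t i m₀ - a i m₀ ∈ p M` for all `i`  (`exists_mod_p_eigenvector`).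

Proof: `R := ℤ[t i] ⊆ End M` is commutative, finite over `ℤ`, acts on `w` through a character
with values in `ℤ̄`; the ideal `I = (p, t i - a i)` of `R` is mapped into `𝔪`, so `I ≠ R`.
Nakayama gives `I M ≠ M`; a maximal ideal `𝔫 ⊇ I + Ann (M / p M)` is a minimal prime of
`Ann (M / p M)` (every prime over `p` is maximal, `R` being integral over `ℤ`), hence an
associated prime of `M / p M`: `𝔫 = Ann (m₀ mod p)`  (`exists_not_mem_forall_smul_mem`).
-/
import Mathlib
import Fermat.Agent.S41.CongModule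

set_option autoImplicit false

namespace Fermat.Agent.S41.Reduction

open scoped TensorProduct IsMulCommutative
set_option linter.style.haveILetI false
open Fermat.Agent.S41.CongModule

/-- Commutative-algebra core: `R` a commutative ring integral over `ℤ`, noetherian, acting
faithfully on a finite module `M`; `I` a proper ideal containing the prime number `p`.
Then some `m₀ ∉ p M` satisfies `I m₀ ⊆ p M`. -/
theorem exists_not_mem_forall_smul_mem {R : Type*} [CommRing R] [IsNoetherianRing R]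
    [Algebra.IsIntegral ℤ R]
    {M : Type*} [AddCommGroup M] [Module R M] [Module.Finite R M]
    (hfaith : ∀ r : R, (∀ m : M, r • m = 0) → r = 0)
    (p : ℕ) (hp : p.Prime) (I : Ideal R) (hpI : (p : R) ∈ I) (hI : I ≠ ⊤) :
    ∃ m₀ : M, (¬ ∃ y : M, m₀ = (p : R) • y) ∧ ∀ r ∈ I, ∃ y : M, r • m₀ = (p : R) • y := by
  classical
  -- Nakayama: `I M ≠ M`
  have hIM : I • (⊤ : Submodule R M) ≠ ⊤ := by
    intro htop
    obtain ⟨r, hr1, hr0⟩ := Submodule.exists_sub_one_mem_and_smul_eq_zero_of_fg_of_le_smul I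
      (⊤ : Submodule R M) Module.Finite.fg_top (by rw [htop])
    have hr : r = 0 := hfaith r (fun m => hr0 m Submodule.mem_top)
    apply hI
    rw [Ideal.eq_top_iff_one]
    have : (1 : R) = -(r - 1) := by rw [hr]; ring
    rw [this]
    exact I.neg_mem hr1
  -- the submodule `p M`
  let Pm : Submodule R M := LinearMap.range (LinearMap.lsmul R M (p : R))
  have hPm : ∀ x : M, x ∈ Pm ↔ ∃ y : M, x = (p : R) • y := by
    intro x
    constructor
    · rintro ⟨y, hy⟩
      exact ⟨y, hy.symm⟩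
    · rintro ⟨y, hy⟩
      exact ⟨y, hy.symm⟩
  have hPmI : Pm ≤ I • (⊤ : Submodule R M) := by
    intro x hx
    obtain ⟨y, rfl⟩ := (hPm x).mp hx
    exact Submodule.smul_mem_smul hpI Submodule.mem_top
  let V := M ⧸ Pm
  have hpann : (p : R) ∈ Module.annihilator R V := by
    rw [Module.mem_annihilator]
    intro v
    obtain ⟨m, rfl⟩ := Submodule.Quotient.mk_surjective Pm v
    rw [← Submodule.Quotient.mk_smul, Submodule.Quotient.mk_eq_zero]
    exact (hPm _).mpr ⟨m, rfl⟩
  have hsup : I ⊔ Module.annihilator R V ≠ ⊤ := by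
    intro htop
    have h1 : (1 : R) ∈ I ⊔ Module.annihilator R V := by rw [htop]; trivial
    obtain ⟨i, hi, a, ha, hia⟩ := Submodule.mem_sup.mp h1
    apply hIM
    rw [eq_top_iff]
    intro m _
    have hm : m = i • m + a • m := by rw [← add_smul, hia, one_smul]
    rw [hm]
    refine Submodule.add_mem _ (Submodule.smul_mem_smul hi Submodule.mem_top) (hPmI ?_)
    rw [Module.mem_annihilator] at ha
    have := ha (Submodule.Quotient.mk m)
    rw [← Submodule.Quotient.mk_smul, Submodule.Quotient.mk_eq_zero] at this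
    exact this
  obtain ⟨𝔫, h𝔫, hle⟩ := Ideal.exists_le_maximal _ hsup
  have hmin : 𝔫 ∈ (Module.annihilator R V).minimalPrimes := by
    refine ⟨⟨h𝔫.isPrime, le_trans le_sup_right hle⟩, ?_⟩
    rintro 𝔮 ⟨h𝔮, h𝔮ann⟩ h𝔮𝔫
    have := h𝔮
    have hcomap : (Ideal.comap (algebraMap ℤ R) 𝔮).IsMaximal := by
      apply Ideal.IsPrime.isMaximal (Ideal.comap_isPrime _ _)
      intro hbot
      have hmem : (p : ℤ) ∈ Ideal.comap (algebraMap ℤ R) 𝔮 := by
        rw [Ideal.mem_comap]
        have : algebraMap ℤ R (p : ℤ) = (p : R) := by simp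
        rw [this]
        exact h𝔮ann hpann
      rw [hbot, Ideal.mem_bot] at hmem
      exact hp.ne_zero (by exact_mod_cast hmem)
    have h𝔮max : 𝔮.IsMaximal := Ideal.isMaximal_of_isIntegral_of_isMaximal_comap 𝔮 hcomap
    exact (h𝔮max.eq_of_le h𝔫.ne_top h𝔮𝔫).ge
  have hass := Module.associatedPrimes.minimalPrimes_annihilator_subset_associatedPrimes R V hmin
  obtain ⟨-, v, hv⟩ := (isAssociatedPrime_iff).mp hass
  obtain ⟨m₀, rfl⟩ := Submodule.Quotient.mk_surjective Pm v
  refine ⟨m₀, ?_, ?_⟩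
  · intro hm₀
    apply h𝔫.ne_top
    rw [hv, eq_top_iff]
    intro r _
    rw [Submodule.mem_colon_singleton, Submodule.mem_bot, ← Submodule.Quotient.mk_smul,
      Submodule.Quotient.mk_eq_zero]
    obtain ⟨y, hy⟩ := hm₀
    exact (hPm _).mpr ⟨r • y, by rw [hy, smul_comm]⟩
  · intro r hr
    have hr𝔫 : r ∈ 𝔫 := hle (Ideal.mem_sup_left hr)
    rw [hv, Submodule.mem_colon_singleton, Submodule.mem_bot, ← Submodule.Quotient.mk_smul,
      Submodule.Quotient.mk_eq_zero] at hr𝔫
    exact (hPm _).mp hr𝔫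

/-- base change of an integer scalar endomorphism -/
theorem baseChange_intCast {M : Type*} [AddCommGroup M] (n : ℤ) (w : ℂ ⊗[ℤ] M) :
    LinearMap.baseChange ℂ ((n : Module.End ℤ M)) w = (n : ℂ) • w := by
  have h : (n : Module.End ℤ M) = n • (LinearMap.id : M →ₗ[ℤ] M) := by
    apply LinearMap.ext
    intro m
    rw [Module.End.intCast_apply, LinearMap.smul_apply, LinearMap.id_apply]
  rw [h, LinearMap.baseChange_smul, LinearMap.baseChange_id, LinearMap.smul_apply,
    LinearMap.id_apply, Int.cast_smul_eq_zsmul]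

theorem exists_mod_p_eigenvector {M : Type*} [AddCommGroup M] [Module.Free ℤ M]
    [Module.Finite ℤ M] {J : Type*}
    (t : J → M →ₗ[ℤ] M) (hcomm : ∀ i k x, t i (t k x) = t k (t i x)) (w : ℂ ⊗[ℤ] M) (hw : w ≠ 0)
    (θ : J → integralClosure ℤ ℂ)
    (hθ : ∀ i, (t i).baseChange ℂ w = ((θ i : integralClosure ℤ ℂ) : ℂ) • w)
    (p : ℕ) (hp : p.Prime) (𝔪 : Ideal (integralClosure ℤ ℂ)) (h𝔪 : 𝔪.IsMaximal)
    (hp𝔪 : (p : integralClosure ℤ ℂ) ∈ 𝔪)
    (a : J → ℤ) (ha : ∀ i, θ i - (a i : integralClosure ℤ ℂ) ∈ 𝔪) :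
    ∃ m₀ : M, ¬ InP p m₀ ∧ ∀ i, InP p (t i m₀ - a i • m₀) := by
  classical
  -- the commutative ring generated by the `t i`
  let R : Subalgebra ℤ (Module.End ℤ M) := Algebra.adjoin ℤ (Set.range t)
  haveI : IsMulCommutative R :=
    Algebra.isMulCommutative_adjoin ℤ (by
      rintro _ ⟨i, rfl⟩ _ ⟨k, rfl⟩
      apply LinearMap.ext
      intro x
      exact hcomm i k x)
  letI : CommRing R := inferInstance
  haveI hRfin : Module.Finite ℤ R := by
    haveI : IsNoetherian ℤ (Module.End ℤ M) := isNoetherian_of_isNoetherianRing_of_finite ℤ _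
    exact Module.IsNoetherian.finite ℤ (Subalgebra.toSubmodule R)
  haveI : IsNoetherianRing R := IsNoetherianRing.of_finite ℤ R
  haveI : Algebra.IsIntegral ℤ R := Algebra.IsIntegral.of_finite ℤ R
  haveI : Module.Finite R M := Module.Finite.of_restrictScalars_finite ℤ R M
  have hfaith : ∀ r : R, (∀ m : M, r • m = 0) → r = 0 := by
    intro r hr
    apply Subtype.ext
    apply LinearMap.ext
    intro m
    exact hr m
  -- every element of `R` acts on `w` through an algebraic integer
  have hscal : ∀ s : Module.End ℤ M, s ∈ R →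
      ∃ c : integralClosure ℤ ℂ, LinearMap.baseChange ℂ s w = (c : ℂ) • w := by
    intro s hs
    induction hs using Algebra.adjoin_induction with
    | mem x hx =>
      obtain ⟨i, rfl⟩ := hx
      exact ⟨θ i, hθ i⟩
    | algebraMap n =>
      refine ⟨(n : integralClosure ℤ ℂ), ?_⟩
      rw [eq_intCast, baseChange_intCast]
      push_cast
      rfl
    | add x y _ _ hx hy =>
      obtain ⟨c, hc⟩ := hx
      obtain ⟨d, hd⟩ := hy
      refine ⟨c + d, ?_⟩
      rw [LinearMap.baseChange_add, LinearMap.add_apply, hc, hd]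
      push_cast
      rw [add_smul]
    | mul x y _ _ hx hy =>
      obtain ⟨c, hc⟩ := hx
      obtain ⟨d, hd⟩ := hy
      refine ⟨c * d, ?_⟩
      rw [Module.End.mul_eq_comp, LinearMap.baseChange_comp, LinearMap.comp_apply, hd,
        LinearMap.map_smul, hc]
      push_cast
      rw [smul_smul, mul_comm]
  -- the ideal generated by `p` and the `t i - a i`
  let tR : J → R := fun i => ⟨t i, Algebra.subset_adjoin ⟨i, rfl⟩⟩
  let G : Set R := {(p : R)} ∪ Set.range (fun i => tR i - (a i : R))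
  let I : Ideal R := Ideal.span G
  have hI𝔪 : ∀ s ∈ I, ∃ c ∈ 𝔪, LinearMap.baseChange ℂ (s : Module.End ℤ M) w
      = ((c : integralClosure ℤ ℂ) : ℂ) • w := by
    intro s hs
    induction hs using Submodule.span_induction with
    | mem s hs =>
      rcases hs with hs | ⟨i, rfl⟩
      · rw [Set.mem_singleton_iff] at hs
        subst hs
        refine ⟨(p : integralClosure ℤ ℂ), hp𝔪, ?_⟩
        have h1 : (((p : R) : R) : Module.End ℤ M) = (((p : ℤ) : ℤ) : Module.End ℤ M) := by
          push_cast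
          rfl
        rw [h1, baseChange_intCast]
        push_cast
        rfl
      · refine ⟨θ i - (a i : integralClosure ℤ ℂ), ha i, ?_⟩
        have h1 : ((tR i - (a i : R) : R) : Module.End ℤ M) = t i - ((a i : ℤ) : Module.End ℤ M) := by
          push_cast
          rfl
        rw [h1, LinearMap.baseChange_sub, LinearMap.sub_apply, hθ i, baseChange_intCast]
        push_cast
        rw [sub_smul]
    | zero =>
      refine ⟨0, 𝔪.zero_mem, ?_⟩
      simp
    | add x y _ _ hx hy =>
      obtain ⟨c, hc𝔪, hc⟩ := hx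
      obtain ⟨d, hd𝔪, hd⟩ := hy
      refine ⟨c + d, 𝔪.add_mem hc𝔪 hd𝔪, ?_⟩
      have h1 : ((x + y : R) : Module.End ℤ M) = (x : Module.End ℤ M) + (y : Module.End ℤ M) := rfl
      rw [h1, LinearMap.baseChange_add, LinearMap.add_apply, hc, hd]
      push_cast
      rw [add_smul]
    | smul r x _ hx =>
      obtain ⟨c, hc⟩ := hscal r r.2
      obtain ⟨d, hd𝔪, hd⟩ := hx
      refine ⟨c * d, 𝔪.mul_mem_left c hd𝔪, ?_⟩
      have h1 : ((r • x : R) : Module.End ℤ M) = (r : Module.End ℤ M) * (x : Module.End ℤ M) := rfl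
      rw [h1, Module.End.mul_eq_comp, LinearMap.baseChange_comp, LinearMap.comp_apply, hd,
        LinearMap.map_smul, hc]
      push_cast
      rw [smul_smul, mul_comm]
  have hItop : I ≠ ⊤ := by
    intro htop
    obtain ⟨c, hc𝔪, hc⟩ := hI𝔪 1 (by rw [htop]; trivial)
    have h0 : ((1 : R) : Module.End ℤ M) = LinearMap.id := rfl
    rw [h0, LinearMap.baseChange_id, LinearMap.id_apply] at hc
    have h2 : ((1 : ℂ) - (c : ℂ)) • w = 0 := by rw [sub_smul, one_smul, ← hc, sub_self]
    rcases smul_eq_zero.mp h2 with h | h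
    · have hc1 : c = 1 := by
        apply Subtype.ext
        push_cast
        linear_combination -h
      rw [hc1] at hc𝔪
      exact h𝔪.ne_top ((Ideal.eq_top_iff_one _).mpr hc𝔪)
    · exact hw h
  obtain ⟨m₀, hm₀, hIm₀⟩ := exists_not_mem_forall_smul_mem hfaith p hp I
    (Ideal.subset_span (Or.inl rfl)) hItop
  have hpR : ∀ y : M, (p : R) • y = (p : ℤ) • y := by
    intro y
    show ((p : R) : Module.End ℤ M) y = _
    have h1 : (((p : R) : R) : Module.End ℤ M) = (((p : ℤ) : ℤ) : Module.End ℤ M) := by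
      push_cast
      rfl
    rw [h1, Module.End.intCast_apply]
  refine ⟨m₀, ?_, ?_⟩
  · rintro ⟨y, hy⟩
    exact hm₀ ⟨y, by rw [hpR, hy]⟩
  · intro i
    obtain ⟨y, hy⟩ := hIm₀ (tR i - (a i : R)) (Ideal.subset_span (Or.inr ⟨i, rfl⟩))
    refine ⟨y, ?_⟩
    rw [← hpR, ← hy]
    show _ = ((tR i - (a i : R) : R) : Module.End ℤ M) m₀
    have h1 : ((tR i - (a i : R) : R) : Module.End ℤ M) = t i - ((a i : ℤ) : Module.End ℤ M) := by
      push_cast
      rfl
    rw [h1, LinearMap.sub_apply, Module.End.intCast_apply]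

end Fermat.Agent.S41.Reduction
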