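/-
PROJECT R (S41, level raising), slice R-M4b part 2 (helper2): the assembly.

`level_raising_of_seams` proves the frozen conclusion of S41 from the frozen hypotheses plus the
four SEAMS of the Betti-lattice route (Ribet 1984), stated for the lattices
`M = Hom_par(Γ₀(N), ℤ)`, `M' = Hom_par(Γ₀(N q'), ℤ)` and helper17's degeneracy maps
`Deg.Par.alphaPar1/2`, `betaPar1/2`:

* `hαβ`  (R-M2c)  the degeneracy maps commute with the Hecke operators away from `q'`;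
* `hUq`  (R-M2d)  `U_{q'}` preserves `ker β₁ ∩ ker β₂` and squares to the identity there;
* `hIhara` (SEAM 1) WEAK Ihara mod `p` (helper17's GATE 0 proof): the kernel of `α mod p` is killed
  by `η = (τ_{r'} - (r' + 1)) ∘ (τ_r ∘ τ_r - (r + 1)²)` for every `r ∤ N q` and `r' ≡ 1 [D(r)]`;
* `hPD`  (SEAM 2) pairings on `M`, `M'`, perfect mod `p`, `α`/`β` adjoint, `τ_r` self-adjoint.

Everything else (non-Eisenstein prime: helper12's `NonEis`; reduction mod `p`: helper12's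
`Reduction`; the congruence-module endgame: `CongModule`; Deligne–Serre lifting: `LiftAbs`; the
dictionary forms ↔ lattice: `Forms`) is proved.
-/
import Mathlib
import Fermat.Statements.S41
import Fermat.Agent.S41.CongModule
import Fermat.Agent.S41.LiftAbs
import Fermat.Agent.S41.Forms
import Fermat.Agent.S41.Reduction
import Fermat.Agent.S41.NonEis.Main
import Fermat.Agent.S41.Deg.Par

set_option autoImplicit false
set_option linter.style.haveILetI false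

open WeierstrassCurve
open CongruenceSubgroup ModularCurve ModularCurve.Period TensorProduct ModularFormClass

namespace Fermat.Agent.S41.Lift

open Fermat.Agent.S41.CongModule Fermat.Agent.S41.Deg.Par
open Fermat.Agent.S30.Hecke.Parabolic

local notation "Zb" => integralClosure ℤ ℂ

/-- the Betti lattice of level `N` -/
abbrev Lat (N : ℕ) := parabolicHoms ℤ (Gamma0 N) ℤ

/-- **SEAM (R-M2c)**: the degeneracy maps commute with the Hecke operators away from `q`. -/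
def DegComm {N q : ℕ} (hq : q.Prime) (hqN : ¬ q ∣ N) : Prop :=
  ∀ (r : ℕ) (hr : r.Prime), r ≠ q →
    (∀ x : Lat N, alphaPar1 ℤ ℤ N q (tauPar ℤ ℤ N r hr x) =
        tauPar ℤ ℤ (N * q) r hr (alphaPar1 ℤ ℤ N q x)) ∧
    (∀ x : Lat N, alphaPar2 hq hqN ℤ ℤ (tauPar ℤ ℤ N r hr x) =
        tauPar ℤ ℤ (N * q) r hr (alphaPar2 hq hqN ℤ ℤ x)) ∧
    (∀ y : Lat (N * q), betaPar1 hq hqN ℤ ℤ (tauPar ℤ ℤ (N * q) r hr y) =
        tauPar ℤ ℤ N r hr (betaPar1 hq hqN ℤ ℤ y)) ∧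
    (∀ y : Lat (N * q), betaPar2 hq hqN ℤ ℤ (tauPar ℤ ℤ (N * q) r hr y) =
        tauPar ℤ ℤ N r hr (betaPar2 hq hqN ℤ ℤ y))

/-- **SEAM (R-M2d)**: `U_q` preserves the `q`-new lattice and is an involution on it. -/
def NewInvolution {N q : ℕ} (hq : q.Prime) (hqN : ¬ q ∣ N) : Prop :=
  ∀ y : Lat (N * q), betaPar1 hq hqN ℤ ℤ y = 0 → betaPar2 hq hqN ℤ ℤ y = 0 →
    betaPar1 hq hqN ℤ ℤ (tauPar ℤ ℤ (N * q) q hq y) = 0 ∧
    betaPar2 hq hqN ℤ ℤ (tauPar ℤ ℤ (N * q) q hq y) = 0 ∧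
    tauPar ℤ ℤ (N * q) q hq (tauPar ℤ ℤ (N * q) q hq y) = y

/-! ### The Eisenstein element `η = (B - e') ∘ (A ∘ A - e ^ 2)` -/

section Eta

variable {X Y : Type*} [AddCommGroup X] [AddCommGroup Y]

/-- `η = (B - e') ∘ (A ∘ A - e ^ 2)` -/
def etaOp (A B : X →ₗ[ℤ] X) (e e' : ℤ) : X →ₗ[ℤ] X :=
  (B - e' • LinearMap.id) ∘ₗ (A ∘ₗ A - (e ^ 2) • LinearMap.id)

theorem etaOp_apply (A B : X →ₗ[ℤ] X) (e e' : ℤ) (x : X) :
    etaOp A B e e' x = B (A (A x) - (e ^ 2) • x) - e' • (A (A x) - (e ^ 2) • x) := rfl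

/-- intertwining -/
theorem etaOp_intertwine (A B : X →ₗ[ℤ] X) (A' B' : Y →ₗ[ℤ] Y) (e e' : ℤ) (φ : X →ₗ[ℤ] Y)
    (hA : ∀ x, φ (A x) = A' (φ x)) (hB : ∀ x, φ (B x) = B' (φ x)) (x : X) :
    φ (etaOp A B e e' x) = etaOp A' B' e e' (φ x) := by
  rw [etaOp_apply, etaOp_apply, map_sub, map_smul, hB, map_sub, map_smul, hA, hA]

/-- commutation -/
theorem etaOp_comm (A B : X →ₗ[ℤ] X) (e e' : ℤ) (t : X →ₗ[ℤ] X)
    (hA : ∀ x, t (A x) = A (t x)) (hB : ∀ x, t (B x) = B (t x)) (x : X) :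
    t (etaOp A B e e' x) = etaOp A B e e' (t x) :=
  etaOp_intertwine A B A B e e' t hA hB x

/-- eigenvalue mod `p` -/
theorem etaOp_eigen (p : ℕ) (A B : X →ₗ[ℤ] X) (e e' a a' : ℤ) (m : X)
    (hA : InP p (A m - a • m)) (hB : InP p (B m - a' • m)) :
    InP p (etaOp A B e e' m - ((a' - e') * (a ^ 2 - e ^ 2)) • m) := by
  have h1 : A (A m) - (a ^ 2) • m = A (A m - a • m) + a • (A m - a • m) := by
    rw [map_sub, map_smul, smul_sub, pow_two, mul_smul]; abel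
  have hy : InP p ((A (A m) - (e ^ 2) • m) - (a ^ 2 - e ^ 2) • m) := by
    have : (A (A m) - (e ^ 2) • m) - (a ^ 2 - e ^ 2) • m = A (A m) - (a ^ 2) • m := by
      rw [sub_smul]; abel
    rw [this, h1]; exact (hA.map A).add (hA.zsmul a)
  have h2 : etaOp A B e e' m - ((a' - e') * (a ^ 2 - e ^ 2)) • m =
      (B ((A (A m) - (e ^ 2) • m) - (a ^ 2 - e ^ 2) • m) -
        e' • ((A (A m) - (e ^ 2) • m) - (a ^ 2 - e ^ 2) • m)) +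
      (a ^ 2 - e ^ 2) • (B m - a' • m) := by
    rw [etaOp_apply]
    simp only [map_sub, map_smul]
    module
  rw [h2]
  exact ((hy.map B).sub (hy.zsmul e')).add (hB.zsmul _)

/-- self-adjointness -/
theorem etaOp_selfAdjoint (Bf : X →ₗ[ℤ] X →ₗ[ℤ] ℤ) (A B : X →ₗ[ℤ] X) (e e' : ℤ)
    (hAB : ∀ x, A (B x) = B (A x))
    (hA : ∀ x y, Bf (A x) y = Bf x (A y)) (hB : ∀ x y, Bf (B x) y = Bf x (B y)) (x y : X) :
    Bf (etaOp A B e e' x) y = Bf x (etaOp A B e e' y) := by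
  have h1 : ∀ z, A (A (B z)) = B (A (A z)) := fun z => by rw [hAB, hAB]
  rw [etaOp_apply, etaOp_apply]
  simp only [map_sub, map_smul, LinearMap.sub_apply, LinearMap.smul_apply, hA, hB, h1]

end Eta

/-- **SEAM 1 (weak Ihara, helper17 #3107; literal shape helper24 #3124 (B))**: for every prime
`r ∤ N q` there is a level `D` such that, mod `p`, the kernel of `α = (α₁, α₂)` is killed by
`η = (τ_{r'} - (r' + 1)) ∘ (τ_r ∘ τ_r - (r + 1) ^ 2)` for all primes `r' ≡ 1 [MOD D]`, `r' ∤ N q`. -/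
def IharaMod (p : ℕ) {N q : ℕ} (hq : q.Prime) (hqN : ¬ q ∣ N) : Prop :=
  ∀ (r : ℕ) (hr : r.Prime), ¬ r ∣ N * q → ∃ D : ℕ, 0 < D ∧
    ∀ (r' : ℕ) (hr' : r'.Prime), r' ≡ 1 [MOD D] → ¬ r' ∣ N * q →
      ∀ x y : Lat N, InP p (alphaPar1 ℤ ℤ N q x + alphaPar2 hq hqN ℤ ℤ y) →
        InP p (tauPar ℤ ℤ N r' hr'
            (tauPar ℤ ℤ N r hr (tauPar ℤ ℤ N r hr x) - (((r : ℤ) + 1) ^ 2) • x) -
          ((r' : ℤ) + 1) • (tauPar ℤ ℤ N r hr (tauPar ℤ ℤ N r hr x) - (((r : ℤ) + 1) ^ 2) • x)) ∧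
        InP p (tauPar ℤ ℤ N r' hr'
            (tauPar ℤ ℤ N r hr (tauPar ℤ ℤ N r hr y) - (((r : ℤ) + 1) ^ 2) • y) -
          ((r' : ℤ) + 1) • (tauPar ℤ ℤ N r hr (tauPar ℤ ℤ N r hr y) - (((r : ℤ) + 1) ^ 2) • y))

/-- **SEAM 3' (non-Eisenstein, squared form; literal shape helper24 #3124 (B))**: a good prime `r`
with `a_r² ≢ (r + 1)² mod p`. -/
def NonEisSq (W : WeierstrassCurve ℤ) (p : ℕ) : Prop :=
  ∀ S : Finset ℕ, ∃ r : ℕ, r.Prime ∧ r ∉ S ∧ W.IsGoodPrimeFor r ∧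
    ¬ ((p : ℤ) ∣ (W.apOfModel r) ^ 2 - ((r : ℤ) + 1) ^ 2)

/-- **SEAM 2 (Poincaré duality)**: pairings perfect mod `p`, for which `α` and `β` are adjoint and
the `τ_r` (`r ∤ N q`) are self-adjoint. -/
def PDMod (p : ℕ) {N q : ℕ} (hq : q.Prime) (hqN : ¬ q ∣ N) : Prop :=
  ∃ (B : Lat N →ₗ[ℤ] Lat N →ₗ[ℤ] ℤ) (B' : Lat (N * q) →ₗ[ℤ] Lat (N * q) →ₗ[ℤ] ℤ),
    (∀ x y z, B' (alphaPar1 ℤ ℤ N q x + alphaPar2 hq hqN ℤ ℤ y) z =
      B x (betaPar1 hq hqN ℤ ℤ z) + B y (betaPar2 hq hqN ℤ ℤ z)) ∧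
    (∀ (r : ℕ) (hr : r.Prime), ¬ r ∣ N * q →
      ∀ x y, B (tauPar ℤ ℤ N r hr x) y = B x (tauPar ℤ ℤ N r hr y)) ∧
    (∀ φ : Lat N →ₗ[ℤ] ℤ, ∃ k : Lat N, ∀ y, (p : ℤ) ∣ φ y - B k y) ∧
    (∀ w : Lat (N * q), (∀ z, (p : ℤ) ∣ B' w z) → InP p w)

/-- the index type of the good primes -/
abbrev GoodPrime (W : WeierstrassCurve ℤ) (N q p : ℕ) :=
  {ℓ : ℕ // ℓ.Prime ∧ W.IsGoodPrimeFor ℓ ∧ ¬ ℓ ∣ N * q ∧ ℓ ≠ p}

/-- the sign `ε = ±1` with `a_{q'}(f) ≡ ε (q' + 1)` -/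
theorem exists_sign {𝔪 : Ideal Zb} (hmax : 𝔪.IsMaximal) {a : Zb} {q : ℕ}
    (h : a ^ 2 - ((q : Zb) + 1) ^ 2 ∈ 𝔪) :
    ∃ ε : ℤ, ε * ε = 1 ∧ a - ((ε * ((q : ℤ) + 1) : ℤ) : Zb) ∈ 𝔪 := by
  have hprime : 𝔪.IsPrime := hmax.isPrime
  have hfac : a ^ 2 - ((q : Zb) + 1) ^ 2 = (a - ((q : Zb) + 1)) * (a + ((q : Zb) + 1)) := by ring
  rw [hfac] at h
  rcases hprime.mem_or_mem h with h1 | h1
  · refine ⟨1, by norm_num, ?_⟩
    have : ((1 * ((q : ℤ) + 1) : ℤ) : Zb) = (q : Zb) + 1 := by push_cast; ring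
    rwa [this]
  · refine ⟨-1, by norm_num, ?_⟩
    have : a - ((-1 * ((q : ℤ) + 1) : ℤ) : Zb) = a + ((q : Zb) + 1) := by push_cast; ring
    rwa [this]

/-- `U² = 1` on `K` passes to `ℂ ⊗ K ⊆ ℂ ⊗ M'` -/
theorem baseChange_sq_of_mem_range {M' : Type*} [AddCommGroup M'] (K : Submodule ℤ M')
    (s : M' →ₗ[ℤ] M') (hs : ∀ x ∈ K, s (s x) = x) {w : ℂ ⊗[ℤ] M'}
    (hw : w ∈ LinearMap.range (K.subtype.baseChange ℂ)) :
    s.baseChange ℂ (s.baseChange ℂ w) = w := by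
  obtain ⟨v, rfl⟩ := hw
  have h1 : (s ∘ₗ s) ∘ₗ K.subtype = K.subtype := by
    ext x
    exact hs x x.2
  have h2 : s.baseChange ℂ (s.baseChange ℂ (K.subtype.baseChange ℂ v)) =
      (((s ∘ₗ s) ∘ₗ K.subtype).baseChange ℂ) v := by
    rw [LinearMap.baseChange_comp, LinearMap.baseChange_comp]
    rfl
  rw [h2, h1]

section Main

variable (E : WeierstrassCurve ℚ) [E.IsElliptic] {W : WeierstrassCurve ℤ}
  (hW : W.IsIntegralModelOf E)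
  {p N q' : ℕ} (hp : p.Prime) (hp2 : p ≠ 2) (hN : 0 < N) (hq' : q'.Prime) (hq'N : ¬ q' ∣ N)
  (hq'p : q' ≠ p)
  (hirr : WeierstrassCurve.Affine.Point.GaloisRepIsIrreducible (K := AlgebraicClosure ℚ) ℚ E p)
  (f : CuspForm (CongruenceSubgroup.Gamma0 N) 2) (𝔪 : Ideal (integralClosure ℤ ℂ))
  (hf : f.IsNormalizedEigenform) (hmax : 𝔪.IsMaximal) (hpm : (p : integralClosure ℤ ℂ) ∈ 𝔪)
  (hcong : ∀ ℓ : ℕ, ℓ.Prime → W.IsGoodPrimeFor ℓ → ¬ ℓ ∣ N → ℓ ≠ p →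
    ∃ a : integralClosure ℤ ℂ, (a : ℂ) = ModularFormClass.qCoeff f ℓ ∧
      a - ((W.apOfModel ℓ : ℤ) : integralClosure ℤ ℂ) ∈ 𝔪)
  (hLR : ∃ a : integralClosure ℤ ℂ, (a : ℂ) = ModularFormClass.qCoeff f q' ∧
    a ^ 2 - ((q' : integralClosure ℤ ℂ) + 1) ^ 2 ∈ 𝔪)

include hW hp hp2 hN hq' hq'N hirr hf hmax hpm hcong hLR in
/-- **Level raising from the seams.** -/
theorem level_raising_of_seams
    (hαβ : DegComm hq' hq'N) (hUq : NewInvolution hq' hq'N)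
    (hIhara : IharaMod p hq' hq'N) (hPD : PDMod p hq' hq'N) (hNE : NonEisSq W p) :
    ∃ (g : CuspForm (CongruenceSubgroup.Gamma0 (N * q')) 2) (𝔪' : Ideal (integralClosure ℤ ℂ)),
      g.IsNormalizedEigenform ∧ 𝔪'.IsMaximal ∧ (p : integralClosure ℤ ℂ) ∈ 𝔪' ∧
      (∀ ℓ : ℕ, ℓ.Prime → W.IsGoodPrimeFor ℓ → ¬ ℓ ∣ N * q' → ℓ ≠ p →
        ∃ a : integralClosure ℤ ℂ, (a : ℂ) = ModularFormClass.qCoeff g ℓ ∧
          a - ((W.apOfModel ℓ : ℤ) : integralClosure ℤ ℂ) ∈ 𝔪') ∧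
      g.IsNewAt q' := by
  classical
  haveI : NeZero N := ⟨hN.ne'⟩
  haveI : NeZero (N * q') := ⟨(Nat.mul_pos hN hq'.pos).ne'⟩
  -- Step 1: the sign
  obtain ⟨aq, haq, haq2⟩ := hLR
  obtain ⟨ε, hε, hεm⟩ := exists_sign hmax haq2
  -- Step 2: the eigenvector of `f` in `ℂ ⊗ M` and its reduction mod `p`
  obtain ⟨w, hw0, hweig⟩ := Forms.exists_eigenvector_of_eigenform N hf
  have hnotdvd : ∀ ℓ : GoodPrime W N q' p, ¬ (ℓ : ℕ) ∣ N := fun ℓ h =>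
    ℓ.2.2.2.1 (Dvd.dvd.mul_right h q')
  -- the operators, eigenvalues and integers, indexed by `Option (GoodPrime ..)`
  let tJ : Option (GoodPrime W N q' p) → (Lat N →ₗ[ℤ] Lat N) := fun j =>
    match j with
    | none => tauPar ℤ ℤ N q' hq'
    | Option.some ℓ => tauPar ℤ ℤ N ℓ ℓ.2.1
  let θJ : Option (GoodPrime W N q' p) → Zb := fun j =>
    match j with
    | none => aq
    | Option.some ℓ => (hcong ℓ ℓ.2.1 ℓ.2.2.1 (hnotdvd ℓ) ℓ.2.2.2.2).choose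
  let aJ : Option (GoodPrime W N q' p) → ℤ := fun j =>
    match j with
    | none => ε * ((q' : ℤ) + 1)
    | Option.some ℓ => W.apOfModel ℓ
  have htJcomm : ∀ (i k : Option (GoodPrime W N q' p)) (x : Lat N),
      tJ i (tJ k x) = tJ k (tJ i x) := by
    intro i k x
    rcases i with _ | i <;> rcases k with _ | k <;> exact Forms.tauPar_comm N _ _ x
  have hθJ : ∀ j, (tJ j).baseChange ℂ w = ((θJ j : Zb) : ℂ) • w := by
    intro j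
    rcases j with _ | ℓ
    · show (tauPar ℤ ℤ N q' hq').baseChange ℂ w = ((aq : Zb) : ℂ) • w
      rw [haq]; exact hweig q' hq'
    · show (tauPar ℤ ℤ N ℓ ℓ.2.1).baseChange ℂ w = _
      have := (hcong ℓ ℓ.2.1 ℓ.2.2.1 (hnotdvd ℓ) ℓ.2.2.2.2).choose_spec.1
      show _ = (((hcong ℓ ℓ.2.1 ℓ.2.2.1 (hnotdvd ℓ) ℓ.2.2.2.2).choose : Zb) : ℂ) • w
      rw [this]; exact hweig ℓ ℓ.2.1
  have haJ : ∀ j, θJ j - ((aJ j : ℤ) : Zb) ∈ 𝔪 := by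
    intro j
    rcases j with _ | ℓ
    · exact hεm
    · exact (hcong ℓ ℓ.2.1 ℓ.2.2.1 (hnotdvd ℓ) ℓ.2.2.2.2).choose_spec.2
  obtain ⟨m₀, hm₀, hm₀eig⟩ := Reduction.exists_mod_p_eigenvector tJ htJcomm w hw0 θJ hθJ p hp 𝔪
    hmax hpm aJ haJ
  -- Step 3: the two non-Eisenstein primes `r`, `r'`
  have hpos : N * q' * p ≠ 0 := (Nat.mul_pos (Nat.mul_pos hN hq'.pos) hp.pos).ne'
  have hS : ∀ {r : ℕ}, r.Prime → r ∉ (N * q' * p).primeFactors → ¬ r ∣ N * q' ∧ r ≠ p := by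
    intro r hr hrS
    have hrdvd : ¬ r ∣ N * q' * p := fun h => hrS (Nat.mem_primeFactors.mpr ⟨hr, h, hpos⟩)
    exact ⟨fun h => hrdvd (Dvd.dvd.mul_right h p),
      fun h => hrdvd (by rw [h]; exact Dvd.intro_left _ rfl)⟩
  obtain ⟨r, hr, hrS, hrgood, hrne⟩ := hNE ((N * q' * p).primeFactors)
  obtain ⟨hrNq, hrp⟩ := hS hr hrS
  obtain ⟨D, hD, hIh⟩ := hIhara r hr hrNq
  obtain ⟨r', hr', hr'S, hr'1, hr'good, hr'ne⟩ := NonEis.Main.exists_prime_ap_ne E hW hp hp2 hirr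
    D hD ((N * q' * p).primeFactors)
  obtain ⟨hr'Nq, hr'p⟩ := hS hr' hr'S
  let rG : GoodPrime W N q' p := ⟨r, hr, hrgood, hrNq, hrp⟩
  let rG' : GoodPrime W N q' p := ⟨r', hr', hr'good, hr'Nq, hr'p⟩
  have hrq : ∀ ℓ : GoodPrime W N q' p, (ℓ : ℕ) ≠ q' := fun ℓ h =>
    ℓ.2.2.2.1 (by rw [h]; exact Dvd.intro_left _ rfl)
  -- the Eisenstein element at both levels
  let η : Lat N →ₗ[ℤ] Lat N :=
    etaOp (tauPar ℤ ℤ N r hr) (tauPar ℤ ℤ N r' hr') ((r : ℤ) + 1) ((r' : ℤ) + 1)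
  let η' : Lat (N * q') →ₗ[ℤ] Lat (N * q') :=
    etaOp (tauPar ℤ ℤ (N * q') r hr) (tauPar ℤ ℤ (N * q') r' hr') ((r : ℤ) + 1) ((r' : ℤ) + 1)
  let b : ℤ := (W.apOfModel r' - ((r' : ℤ) + 1)) *
    ((W.apOfModel r) ^ 2 - ((r : ℤ) + 1) ^ 2)
  have hb : ¬ (p : ℤ) ∣ b - 0 := by
    rw [sub_zero]
    intro h
    rcases (Nat.prime_iff_prime_int.mp hp).dvd_or_dvd h with h1 | h1
    · exact hr'ne h1
    · exact hrne h1
  -- Step 4: the congruence-module core, with index type `Option (GoodPrime ..)`, `none ↦ η`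
  obtain ⟨B, B', hadj, hself, hperfp, hnd'⟩ := hPD
  let tC : Option (GoodPrime W N q' p) → (Lat N →ₗ[ℤ] Lat N) := fun j =>
    match j with
    | none => η
    | Option.some ℓ => tauPar ℤ ℤ N ℓ ℓ.2.1
  let tC' : Option (GoodPrime W N q' p) → (Lat (N * q') →ₗ[ℤ] Lat (N * q')) := fun j =>
    match j with
    | none => η'
    | Option.some ℓ => tauPar ℤ ℤ (N * q') ℓ ℓ.2.1
  let aC : Option (GoodPrime W N q' p) → ℤ := fun j =>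
    match j with
    | none => b
    | Option.some ℓ => W.apOfModel ℓ
  have hCα₁ : ∀ i x, alphaPar1 ℤ ℤ N q' (tC i x) = tC' i (alphaPar1 ℤ ℤ N q' x) := by
    intro i x
    rcases i with _ | ℓ
    · exact etaOp_intertwine _ _ _ _ _ _ (alphaPar1 ℤ ℤ N q')
        (fun x => (hαβ r hr (hrq rG)).1 x) (fun x => (hαβ r' hr' (hrq rG')).1 x) x
    · exact (hαβ ℓ ℓ.2.1 (hrq ℓ)).1 x
  have hCα₂ : ∀ i x, alphaPar2 hq' hq'N ℤ ℤ (tC i x) = tC' i (alphaPar2 hq' hq'N ℤ ℤ x) := by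
    intro i x
    rcases i with _ | ℓ
    · exact etaOp_intertwine _ _ _ _ _ _ (alphaPar2 hq' hq'N ℤ ℤ)
        (fun x => (hαβ r hr (hrq rG)).2.1 x) (fun x => (hαβ r' hr' (hrq rG')).2.1 x) x
    · exact (hαβ ℓ ℓ.2.1 (hrq ℓ)).2.1 x
  have hCβ₁ : ∀ i y, betaPar1 hq' hq'N ℤ ℤ (tC' i y) = tC i (betaPar1 hq' hq'N ℤ ℤ y) := by
    intro i y
    rcases i with _ | ℓ
    · exact etaOp_intertwine _ _ _ _ _ _ (betaPar1 hq' hq'N ℤ ℤ)
        (fun x => (hαβ r hr (hrq rG)).2.2.1 x) (fun x => (hαβ r' hr' (hrq rG')).2.2.1 x) y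
    · exact (hαβ ℓ ℓ.2.1 (hrq ℓ)).2.2.1 y
  have hCβ₂ : ∀ i y, betaPar2 hq' hq'N ℤ ℤ (tC' i y) = tC i (betaPar2 hq' hq'N ℤ ℤ y) := by
    intro i y
    rcases i with _ | ℓ
    · exact etaOp_intertwine _ _ _ _ _ _ (betaPar2 hq' hq'N ℤ ℤ)
        (fun x => (hαβ r hr (hrq rG)).2.2.2 x) (fun x => (hαβ r' hr' (hrq rG')).2.2.2 x) y
    · exact (hαβ ℓ ℓ.2.1 (hrq ℓ)).2.2.2 y
  have hCcomm : ∀ i y, tC' i (tC' none y) = tC' none (tC' i y) := by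
    intro i y
    rcases i with _ | ℓ
    · rfl
    · exact etaOp_comm _ _ _ _ (tauPar ℤ ℤ (N * q') ℓ ℓ.2.1)
        (fun x => Forms.tauPar_comm (N * q') ℓ.2.1 hr x)
        (fun x => Forms.tauPar_comm (N * q') ℓ.2.1 hr' x) y
  have hCIhara : ∀ x y : Lat N,
      InP p (alphaPar1 ℤ ℤ N q' x + alphaPar2 hq' hq'N ℤ ℤ y) →
        InP p (tC none x - (0 : ℤ) • x) ∧ InP p (tC none y - (0 : ℤ) • y) := by
    intro x y hxy
    rw [zero_smul, zero_smul, sub_zero, sub_zero]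
    exact hIh r' hr' hr'1 hr'Nq x y hxy
  have hCself : ∀ x y, B (tC none x) y = B x (tC none y) := fun x y =>
    etaOp_selfAdjoint B _ _ _ _ (fun x => Forms.tauPar_comm N hr hr' x)
      (hself r hr hrNq) (hself r' hr' hr'Nq) x y
  have hCeig : ∀ i, InP p (tC i m₀ - aC i • m₀) := by
    intro i
    rcases i with _ | ℓ
    · exact etaOp_eigen p _ _ _ _ _ _ m₀ (hm₀eig (Option.some rG)) (hm₀eig (Option.some rG'))
    · exact hm₀eig (Option.some ℓ)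
  obtain ⟨u, hu1, hu2, hu, hueig⟩ := level_raising_core_mod_p p hp tC tC' aC
    (tauPar ℤ ℤ N q' hq') ((q' : ℤ) + 1) ε
    (alphaPar1 ℤ ℤ N q') (alphaPar2 hq' hq'N ℤ ℤ) (betaPar1 hq' hq'N ℤ ℤ) (betaPar2 hq' hq'N ℤ ℤ)
    hε hCα₁ hCα₂ hCβ₁ hCβ₂
    (h11 hq' hq'N) (h12 hq' hq'N) (h21 hq' hq'N) (h22 hq' hq'N)
    none 0 hCcomm hCIhara B B' hadj hCself hperfp hnd'
    m₀ hm₀ hCeig (hm₀eig none) hb
  -- Step 5: Deligne–Serre lifting in the `q'`-new lattice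
  let K : Submodule ℤ (Lat (N * q')) :=
    LinearMap.ker (betaPar1 hq' hq'N ℤ ℤ) ⊓ LinearMap.ker (betaPar2 hq' hq'N ℤ ℤ)
  have hKmem : ∀ y : Lat (N * q'), y ∈ K ↔
      betaPar1 hq' hq'N ℤ ℤ y = 0 ∧ betaPar2 hq' hq'N ℤ ℤ y = 0 := fun y => by
    simp only [K, Submodule.mem_inf, LinearMap.mem_ker]
  let sP : Nat.Primes → (Lat (N * q') →ₗ[ℤ] Lat (N * q')) := fun j =>
    tauPar ℤ ℤ (N * q') j j.2
  have hsP : ∀ j k x, sP j (sP k x) = sP k (sP j x) := fun j k x =>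
    Forms.tauPar_comm (N * q') j.2 k.2 x
  have hKst : ∀ j, ∀ x ∈ K, sP j x ∈ K := by
    intro j x hx
    rw [hKmem] at hx ⊢
    by_cases hj : (j : ℕ) = q'
    · have hj' : j = ⟨q', hq'⟩ := Subtype.ext hj
      subst hj'
      exact ⟨(hUq x hx.1 hx.2).1, (hUq x hx.1 hx.2).2.1⟩
    · obtain ⟨-, -, hb1, hb2⟩ := hαβ j j.2 hj
      exact ⟨by rw [show sP j x = tauPar ℤ ℤ (N * q') j j.2 x from rfl, hb1, hx.1, map_zero],
        by rw [show sP j x = tauPar ℤ ℤ (N * q') j j.2 x from rfl, hb2, hx.2, map_zero]⟩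
  let good : Set Nat.Primes := {j | W.IsGoodPrimeFor j ∧ ¬ (j : ℕ) ∣ N * q' ∧ (j : ℕ) ≠ p}
  obtain ⟨w', ϑ, 𝔪', hw'0, hw'K, hmax', hpm', hw'eig, hϑ⟩ := LiftAbs.exists_lift K p hp sP hsP hKst
    good (fun j => W.apOfModel j) u ((hKmem u).mpr ⟨hu1, hu2⟩) hu
    (by
      intro j hj
      obtain ⟨z, hz1, hz2, hz⟩ := hueig (Option.some ⟨j, j.2, hj.1, hj.2.1, hj.2.2⟩)
      exact ⟨z, (hKmem z).mpr ⟨hz1, hz2⟩, hz⟩)
  -- Step 6: back to forms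
  obtain ⟨g, hg, hgθ⟩ := Forms.exists_eigenform_of_eigenvector (N * q') w' hw'0
    (fun r => if h : r.Prime then ((ϑ ⟨r, h⟩ : Zb) : ℂ) else 0)
    (by
      intro r hr
      rw [dif_pos hr]
      exact hw'eig ⟨r, hr⟩)
  refine ⟨g, 𝔪', hg, hmax', hpm', ?_, ?_⟩
  · intro ℓ hℓ hℓgood hℓN hℓp
    refine ⟨ϑ ⟨ℓ, hℓ⟩, ?_, hϑ ⟨ℓ, hℓ⟩ ⟨hℓgood, hℓN, hℓp⟩⟩
    rw [hgθ ℓ hℓ, dif_pos hℓ]
  · -- Step 7: `a_{q'}(g)² = 1`
    show qCoeff (⇑g) q' ^ 2 = 1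
    rw [hgθ q' hq', dif_pos hq']
    have hsq := baseChange_sq_of_mem_range K (sP ⟨q', hq'⟩)
      (fun x hx => (hUq x ((hKmem x).mp hx).1 ((hKmem x).mp hx).2).2.2) hw'K
    rw [hw'eig ⟨q', hq'⟩, map_smul, hw'eig ⟨q', hq'⟩, smul_smul] at hsq
    have h1 : (((ϑ ⟨q', hq'⟩ : Zb) : ℂ) * ((ϑ ⟨q', hq'⟩ : Zb) : ℂ)) • w' = (1 : ℂ) • w' := by
      rw [hsq, one_smul]
    have h2 := smul_left_injective ℂ hw'0 h1
    rw [pow_two]; exact h2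

end Main

end Fermat.Agent.S41.Lift
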